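/-
Cluster B (helper5): the INTRINSIC Gauss valuation ring of a field `F ⊆ K((q))` of Laurent series
with respect to a valuation subring `A` of the coefficient field `K`.

No valuation function, no suprema, no completions: everything is phrased with *presentations*
`f = Y₁ / Y₂`, where `Y₁, Y₂` are series with coefficients in `A` lying in `F`, and `Y₂` is
primitive (its coefficientwise reduction is nonzero).

* `gaussSub A F : Subring (LaurentSeries K)`  -- the Gauss ring `O_v` (contained in `F`)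
* `gaussRes A F : gaussSub A F →+* LaurentSeries k` -- the residue map, `k` the residue field of `A`
* `gaussRes_eq_of_isPres` -- `ρ f = Ȳ₁ / Ȳ₂` for EVERY presentation
* `emb_mem_gaussSub`, `gaussRes_emb` -- integral elements (the Prelude shape of
  `IsPlaceReductionAlong`): `ρ` is the coefficientwise reduction
* `inv_mem_gaussSub` -- elements with nonzero residue are units
* `coeffMap_mem_gaussSub`, `gaussRes_coeffMap` -- equivariance under automorphisms of `K`
  preserving `A` (decomposition group); the inertia case is `gaussRes_coeffMap_of_inertia`.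
-/
import Mathlib
import Fermat.Prelude.Def_ModularCurve_LaurentCoeff

set_option autoImplicit false

noncomputable section

namespace Fermat.Agent.GaussInt

open ModularCurve HahnSeries

variable {K : Type*} [Field K] (A : ValuationSubring K)

/-- The embedding of series with coefficients in `A` into series over `K`. -/
abbrev emb : LaurentSeries A →+* LaurentSeries K := coeffMap A.subtype

/-- The coefficientwise reduction of a series with coefficients in `A`. -/
abbrev red : LaurentSeries A →+* LaurentSeries (IsLocalRing.ResidueField A) :=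
  coeffMap (IsLocalRing.residue A)

theorem coeffMap_injective_of_injective {R S : Type*} [CommRing R] [CommRing S] (f : R →+* S)
    (hf : Function.Injective f) : Function.Injective (coeffMap f) := by
  intro x y h
  ext n
  apply hf
  have := congrArg (fun z => z.coeff n) h
  simpa using this

theorem emb_injective : Function.Injective (emb A) :=
  coeffMap_injective_of_injective _ Subtype.val_injective

@[simp] theorem emb_coeff (Y : LaurentSeries A) (n : ℤ) : (emb A Y).coeff n = (Y.coeff n : K) := rfl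

@[simp] theorem red_coeff (Y : LaurentSeries A) (n : ℤ) :
    (red A Y).coeff n = IsLocalRing.residue A (Y.coeff n) := rfl

variable (F : IntermediateField K (LaurentSeries K))

/-- `(Y₁, Y₂)` is a presentation of `f`: `f = Y₁ / Y₂` with `Y₁, Y₂ ∈ F` integral and
`Y₂` primitive. -/
structure IsPres (f : LaurentSeries K) (Y₁ Y₂ : LaurentSeries A) : Prop where
  mem₁ : emb A Y₁ ∈ F
  mem₂ : emb A Y₂ ∈ F
  prim : red A Y₂ ≠ 0
  eq : f * emb A Y₂ = emb A Y₁

variable {A F}

theorem IsPres.emb_ne_zero {f : LaurentSeries K} {Y₁ Y₂ : LaurentSeries A}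
    (h : IsPres A F f Y₁ Y₂) : emb A Y₂ ≠ 0 := by
  intro h0
  have : Y₂ = 0 := emb_injective A (by rw [h0, map_zero])
  exact h.prim (by rw [this, map_zero])

theorem IsPres.eq_div {f : LaurentSeries K} {Y₁ Y₂ : LaurentSeries A}
    (h : IsPres A F f Y₁ Y₂) : f = emb A Y₁ / emb A Y₂ := by
  rw [eq_div_iff h.emb_ne_zero, h.eq]

theorem IsPres.mem {f : LaurentSeries K} {Y₁ Y₂ : LaurentSeries A}
    (h : IsPres A F f Y₁ Y₂) : f ∈ F := by
  rw [h.eq_div]
  exact div_mem h.mem₁ h.mem₂

theorem IsPres.zero : IsPres A F 0 0 1 :=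
  ⟨by simp, by simp, by simp, by simp⟩

theorem IsPres.one : IsPres A F 1 1 1 :=
  ⟨by simp, by simp, by simp, by simp⟩

theorem IsPres.add {f g : LaurentSeries K} {Y₁ Y₂ Z₁ Z₂ : LaurentSeries A}
    (hf : IsPres A F f Y₁ Y₂) (hg : IsPres A F g Z₁ Z₂) :
    IsPres A F (f + g) (Y₁ * Z₂ + Z₁ * Y₂) (Y₂ * Z₂) where
  mem₁ := by
    rw [map_add, map_mul, map_mul]
    exact add_mem (mul_mem hf.mem₁ hg.mem₂) (mul_mem hg.mem₁ hf.mem₂)
  mem₂ := by
    rw [map_mul]
    exact mul_mem hf.mem₂ hg.mem₂
  prim := by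
    rw [map_mul]
    exact mul_ne_zero hf.prim hg.prim
  eq := by
    rw [map_add, map_mul, map_mul, map_mul, ← hf.eq, ← hg.eq]
    ring

theorem IsPres.mul {f g : LaurentSeries K} {Y₁ Y₂ Z₁ Z₂ : LaurentSeries A}
    (hf : IsPres A F f Y₁ Y₂) (hg : IsPres A F g Z₁ Z₂) :
    IsPres A F (f * g) (Y₁ * Z₁) (Y₂ * Z₂) where
  mem₁ := by
    rw [map_mul]
    exact mul_mem hf.mem₁ hg.mem₁
  mem₂ := by
    rw [map_mul]
    exact mul_mem hf.mem₂ hg.mem₂
  prim := by
    rw [map_mul]
    exact mul_ne_zero hf.prim hg.prim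
  eq := by
    rw [map_mul, map_mul, ← hf.eq, ← hg.eq]
    ring

theorem IsPres.neg {f : LaurentSeries K} {Y₁ Y₂ : LaurentSeries A}
    (hf : IsPres A F f Y₁ Y₂) : IsPres A F (-f) (-Y₁) Y₂ where
  mem₁ := by
    rw [map_neg]
    exact neg_mem hf.mem₁
  mem₂ := hf.mem₂
  prim := hf.prim
  eq := by rw [map_neg, ← hf.eq, neg_mul]

/-- Integral elements: the Prelude shape. -/
theorem IsPres.of_emb {y : LaurentSeries A} (hy : emb A y ∈ F) : IsPres A F (emb A y) y 1 :=
  ⟨hy, by simp, by simp, by simp⟩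

/-- Two presentations of the same element have the same reduced quotient. -/
theorem IsPres.red_div_eq {f : LaurentSeries K} {Y₁ Y₂ Z₁ Z₂ : LaurentSeries A}
    (hf : IsPres A F f Y₁ Y₂) (hg : IsPres A F f Z₁ Z₂) :
    red A Y₁ / red A Y₂ = red A Z₁ / red A Z₂ := by
  rw [div_eq_div_iff hf.prim hg.prim]
  have h1 : emb A (Y₁ * Z₂) = emb A (Z₁ * Y₂) := by
    rw [map_mul, map_mul, ← hf.eq, ← hg.eq]
    ring
  have h2 : Y₁ * Z₂ = Z₁ * Y₂ := emb_injective A h1
  rw [← map_mul, ← map_mul, h2]

variable (A F)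

/-- The Gauss ring `O_v` of `F` with respect to `A`, as a subring of `K((q))` (contained in `F`). -/
def gaussSub : Subring (LaurentSeries K) where
  carrier := {f | ∃ Y₁ Y₂ : LaurentSeries A, IsPres A F f Y₁ Y₂}
  zero_mem' := ⟨0, 1, IsPres.zero⟩
  one_mem' := ⟨1, 1, IsPres.one⟩
  add_mem' := by
    rintro f g ⟨Y₁, Y₂, hf⟩ ⟨Z₁, Z₂, hg⟩
    exact ⟨_, _, hf.add hg⟩
  mul_mem' := by
    rintro f g ⟨Y₁, Y₂, hf⟩ ⟨Z₁, Z₂, hg⟩
    exact ⟨_, _, hf.mul hg⟩
  neg_mem' := by
    rintro f ⟨Y₁, Y₂, hf⟩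
    exact ⟨_, _, hf.neg⟩

variable {A F}

theorem mem_gaussSub_iff {f : LaurentSeries K} :
    f ∈ gaussSub A F ↔ ∃ Y₁ Y₂ : LaurentSeries A, IsPres A F f Y₁ Y₂ := Iff.rfl

theorem IsPres.mem_gaussSub {f : LaurentSeries K} {Y₁ Y₂ : LaurentSeries A}
    (h : IsPres A F f Y₁ Y₂) : f ∈ gaussSub A F := ⟨Y₁, Y₂, h⟩

theorem mem_of_mem_gaussSub {f : LaurentSeries K} (hf : f ∈ gaussSub A F) : f ∈ F := by
  obtain ⟨Y₁, Y₂, h⟩ := hf
  exact h.mem

theorem gaussSub_le : gaussSub A F ≤ F.toSubring := fun _ hf => mem_of_mem_gaussSub hf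

variable (A F)

open Classical in
/-- The residue map as a plain function on `K((q))` (zero outside the Gauss ring). -/
def gaussResFun (f : LaurentSeries K) : LaurentSeries (IsLocalRing.ResidueField A) :=
  if h : ∃ Y₁ Y₂ : LaurentSeries A, IsPres A F f Y₁ Y₂ then
    red A h.choose / red A h.choose_spec.choose
  else 0

variable {A F}

/-- The residue of `f` is `Ȳ₁ / Ȳ₂` for EVERY presentation `(Y₁, Y₂)`. -/
theorem gaussResFun_eq {f : LaurentSeries K} {Y₁ Y₂ : LaurentSeries A}
    (h : IsPres A F f Y₁ Y₂) : gaussResFun A F f = red A Y₁ / red A Y₂ := by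
  have hex : ∃ Y₁ Y₂ : LaurentSeries A, IsPres A F f Y₁ Y₂ := ⟨Y₁, Y₂, h⟩
  rw [gaussResFun, dif_pos hex]
  exact hex.choose_spec.choose_spec.red_div_eq h

theorem gaussResFun_mul_red {f : LaurentSeries K} {Y₁ Y₂ : LaurentSeries A}
    (h : IsPres A F f Y₁ Y₂) : gaussResFun A F f * red A Y₂ = red A Y₁ := by
  rw [gaussResFun_eq h, div_mul_cancel₀ _ h.prim]

variable (A F)

/-- The residue map of the Gauss ring. -/
def gaussRes : gaussSub A F →+* LaurentSeries (IsLocalRing.ResidueField A) where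
  toFun f := gaussResFun A F (f : LaurentSeries K)
  map_zero' := by
    show gaussResFun A F 0 = 0
    rw [gaussResFun_eq IsPres.zero]
    simp
  map_one' := by
    show gaussResFun A F 1 = 1
    rw [gaussResFun_eq IsPres.one]
    simp
  map_add' := by
    rintro ⟨f, Y₁, Y₂, hf⟩ ⟨g, Z₁, Z₂, hg⟩
    show gaussResFun A F (f + g) = gaussResFun A F f + gaussResFun A F g
    rw [gaussResFun_eq hf, gaussResFun_eq hg, gaussResFun_eq (hf.add hg),
      div_add_div _ _ hf.prim hg.prim]
    simp only [map_add, map_mul]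
    ring
  map_mul' := by
    rintro ⟨f, Y₁, Y₂, hf⟩ ⟨g, Z₁, Z₂, hg⟩
    show gaussResFun A F (f * g) = gaussResFun A F f * gaussResFun A F g
    rw [gaussResFun_eq hf, gaussResFun_eq hg, gaussResFun_eq (hf.mul hg), div_mul_div_comm]
    simp only [map_mul]

variable {A F}

@[simp] theorem gaussRes_apply (f : gaussSub A F) :
    gaussRes A F f = gaussResFun A F (f : LaurentSeries K) := rfl

theorem gaussRes_eq_of_isPres {f : LaurentSeries K} {Y₁ Y₂ : LaurentSeries A}
    (h : IsPres A F f Y₁ Y₂) : gaussRes A F ⟨f, h.mem_gaussSub⟩ = red A Y₁ / red A Y₂ :=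
  gaussResFun_eq h

/-- Integral elements of `F` lie in the Gauss ring. -/
theorem emb_mem_gaussSub {y : LaurentSeries A} (hy : emb A y ∈ F) : emb A y ∈ gaussSub A F :=
  (IsPres.of_emb hy).mem_gaussSub

/-- On integral elements the residue map is the coefficientwise reduction. -/
theorem gaussResFun_emb {y : LaurentSeries A} (hy : emb A y ∈ F) :
    gaussResFun A F (emb A y) = red A y := by
  rw [gaussResFun_eq (IsPres.of_emb hy)]
  simp

theorem gaussRes_emb {y : LaurentSeries A} (hy : emb A y ∈ F) :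
    gaussRes A F ⟨emb A y, emb_mem_gaussSub hy⟩ = red A y :=
  gaussResFun_emb hy

/-- Elements of the Gauss ring with nonzero residue are units. -/
theorem inv_mem_gaussSub {f : LaurentSeries K} (hf : f ∈ gaussSub A F)
    (hres : gaussResFun A F f ≠ 0) : f⁻¹ ∈ gaussSub A F := by
  obtain ⟨Y₁, Y₂, h⟩ := hf
  have h1 : red A Y₁ ≠ 0 := by
    intro h0
    apply hres
    rw [gaussResFun_eq h, h0, zero_div]
  have hY₁ : emb A Y₁ ≠ 0 := by
    intro h0
    have : Y₁ = 0 := emb_injective A (by rw [h0, map_zero])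
    exact h1 (by rw [this, map_zero])
  have hf0 : f ≠ 0 := by
    rintro rfl
    have h2 := h.eq
    rw [zero_mul] at h2
    exact hY₁ h2.symm
  refine ⟨Y₂, Y₁, h.mem₂, h.mem₁, h1, ?_⟩
  rw [← h.eq]
  field_simp

theorem gaussResFun_inv {f : LaurentSeries K} (hf : f ∈ gaussSub A F)
    (hres : gaussResFun A F f ≠ 0) : gaussResFun A F f⁻¹ = (gaussResFun A F f)⁻¹ := by
  have hinv := inv_mem_gaussSub hf hres
  have hf0 : f ≠ 0 := by
    rintro rfl
    exact hres (map_zero (gaussRes A F))
  have h1 : gaussRes A F (⟨f, hf⟩ * ⟨f⁻¹, hinv⟩) = 1 := by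
    have : (⟨f, hf⟩ * ⟨f⁻¹, hinv⟩ : gaussSub A F) = 1 := Subtype.ext (mul_inv_cancel₀ hf0)
    rw [this, map_one]
  rw [map_mul] at h1
  exact eq_inv_of_mul_eq_one_right h1

/-- The kernel of the residue map: elements with a presentation with `Ȳ₁ = 0`. -/
theorem gaussResFun_eq_zero_iff {f : LaurentSeries K} {Y₁ Y₂ : LaurentSeries A}
    (h : IsPres A F f Y₁ Y₂) : gaussResFun A F f = 0 ↔ red A Y₁ = 0 := by
  rw [gaussResFun_eq h, div_eq_zero_iff]
  exact ⟨fun h' => h'.resolve_right h.prim, Or.inl⟩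

/-! ### Constants -/

variable (A) in
/-- The constant series with value `a ∈ A`. -/
def constA (a : A) : LaurentSeries A := HahnSeries.single 0 a

variable (A) in
theorem emb_constA (a : A) : emb A (constA A a) = algebraMap K (LaurentSeries K) (a : K) := by
  rw [constA, coeffMap_single, algebraMap_laurentSeries_eq_single]
  rfl

variable (A) in
theorem red_constA (a : A) : red A (constA A a) =
    algebraMap (IsLocalRing.ResidueField A) (LaurentSeries (IsLocalRing.ResidueField A))
      (IsLocalRing.residue A a) := by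
  rw [constA, coeffMap_single, algebraMap_laurentSeries_eq_single]

theorem algebraMap_mem_gaussSub {c : K} (hc : c ∈ A) :
    algebraMap K (LaurentSeries K) c ∈ gaussSub A F := by
  have h := emb_constA A ⟨c, hc⟩
  have hmem : emb A (constA A ⟨c, hc⟩) ∈ F := by
    rw [h]
    exact F.algebraMap_mem c
  have := emb_mem_gaussSub hmem
  rwa [h] at this

theorem gaussResFun_algebraMap {c : K} (hc : c ∈ A) :
    gaussResFun A F (algebraMap K (LaurentSeries K) c) =
      algebraMap (IsLocalRing.ResidueField A) (LaurentSeries (IsLocalRing.ResidueField A))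
        (IsLocalRing.residue A ⟨c, hc⟩) := by
  have h := emb_constA A ⟨c, hc⟩
  have hmem : emb A (constA A ⟨c, hc⟩) ∈ F := by
    rw [h]
    exact F.algebraMap_mem c
  have h2 := gaussResFun_emb hmem
  rw [h, red_constA] at h2
  exact h2

/-- `O_v ∩ K = A`. -/
theorem algebraMap_mem_gaussSub_iff {c : K} :
    algebraMap K (LaurentSeries K) c ∈ gaussSub A F ↔ c ∈ A := by
  refine ⟨fun h => ?_, algebraMap_mem_gaussSub⟩
  by_contra hc
  have hc0 : c ≠ 0 := fun h0 => hc (h0 ▸ A.zero_mem)
  have hci : c⁻¹ ∈ A := (A.mem_or_inv_mem c).resolve_left hc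
  have hnu : (⟨c⁻¹, hci⟩ : A) ∈ IsLocalRing.maximalIdeal A := by
    rw [IsLocalRing.mem_maximalIdeal, mem_nonunits_iff]
    intro hu
    apply hc
    have := (A.valuation_eq_one_iff ⟨c⁻¹, hci⟩).mp hu
    have h1 : A.valuation c = 1 := by
      have h2 : A.valuation (c⁻¹) = 1 := this
      rw [map_inv₀, inv_eq_one] at h2
      exact h2
    exact (A.valuation_le_one_iff c).mp h1.le
  have hres0 : gaussResFun A F (algebraMap K (LaurentSeries K) c⁻¹) = 0 := by
    rw [gaussResFun_algebraMap hci, (IsLocalRing.residue_eq_zero_iff _).mpr hnu, map_zero]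
  have hmul : gaussRes A F (⟨_, h⟩ * ⟨_, algebraMap_mem_gaussSub (F := F) hci⟩) = 1 := by
    have : (⟨_, h⟩ * ⟨_, algebraMap_mem_gaussSub (F := F) hci⟩ : gaussSub A F) = 1 := by
      apply Subtype.ext
      show algebraMap K (LaurentSeries K) c * algebraMap K (LaurentSeries K) c⁻¹ = 1
      rw [← map_mul, mul_inv_cancel₀ hc0, map_one]
    rw [this, map_one]
  rw [map_mul] at hmul
  have : gaussRes A F ⟨_, algebraMap_mem_gaussSub (F := F) hci⟩ = 0 := hres0
  rw [this, mul_zero] at hmul
  exact zero_ne_one hmul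

end Fermat.Agent.GaussInt
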