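/-
Cluster B (helper5): INTERFACE propositions between the reduction theory (KEY LEMMA, KRONECKER)
and the consumers (cluster A: `F3.TorsionUnramified`, `F3.TorsionFrobQuadratic`).
Definitions only.
-/
import Mathlib
import Fermat.Agent.Lib.GaussInt.Basic
import Fermat.Prelude.Def_ModularCurve_ArithmeticGalois
import Fermat.Prelude.Def_FLTPrelim_Ramification

set_option autoImplicit false

noncomputable section

namespace Fermat.Agent.GaussInt

open ModularCurve AlgebraicCurve

/-- KEY LEMMA at level `N` (prime-to-`ℓ` torsion injects under reduction, function form):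
for `ℓ ∤ N n`, a place `A` of `ℚ̄` over `ℓ`, and `g ∈ F^×` (`F = ℚ̄(j(q^d) : d ∣ N)`) whose divisor
is divisible by `n` and which is `≡ 1` modulo the maximal ideal of the Gauss valuation ring
(i.e. `g ∈ O_v` and `ρ g = 1`), `g` is an `n`-th power in `F`. -/
def KeyLemmaAt (N : ℕ) [NeZero N] : Prop :=
  ∀ (n ℓ : ℕ), ℓ.Prime → ¬ ℓ ∣ N * n →
    ∀ A : ValuationSubring (AlgebraicClosure ℚ), A.LiesOverPrime ℓ →
      ∀ g : modularFunctionFieldBar N, g ≠ 0 →
        (∀ P : Place (AlgebraicClosure ℚ) (modularFunctionFieldBar N), (n : ℤ) ∣ P.ord g) →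
        (g : LaurentSeries (AlgebraicClosure ℚ)) ∈ gaussSub A (modularFunctionFieldBar N) →
        gaussResFun A (modularFunctionFieldBar N) (g : LaurentSeries (AlgebraicClosure ℚ)) = 1 →
        ∃ h : modularFunctionFieldBar N, h ^ n = g

/-- VALUE GROUP at level `N`: every nonzero `f ∈ F` is a constant times a unit of the Gauss
valuation ring (proved unconditionally in `Lib/GaussInt/Tame.lean`). -/
def ValueGroupAt (N : ℕ) [NeZero N] : Prop :=
  ∀ (ℓ : ℕ), ℓ.Prime →
    ∀ A : ValuationSubring (AlgebraicClosure ℚ), A.LiesOverPrime ℓ →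
      ∀ f : modularFunctionFieldBar N, f ≠ 0 →
        ∃ c : AlgebraicClosure ℚ, c ≠ 0 ∧
          algebraMap (AlgebraicClosure ℚ) (LaurentSeries (AlgebraicClosure ℚ)) c *
              (f : LaurentSeries (AlgebraicClosure ℚ)) ∈ gaussSub A (modularFunctionFieldBar N) ∧
          gaussResFun A (modularFunctionFieldBar N)
            (algebraMap (AlgebraicClosure ℚ) (LaurentSeries (AlgebraicClosure ℚ)) c *
              (f : LaurentSeries (AlgebraicClosure ℚ))) ≠ 0

end Fermat.Agent.GaussInt
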