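/-
Cluster B (helper5): the Gauss valuation ring as a `ValuationSubring F` with its residue map,
and its properties in EXACTLY the field shapes of `S18Key.RedSetup` / `Deuring.ValSetup`.

`F = laurentBaseChange K F₀`, `F₀` generated by rational series integral at `A`
(`IsIntGen A F₀`, e.g. `modularFunctionFieldFull N`), `A` over a prime `ℓ`.

* `gaussValSub h : ValuationSubring F`, `mem_gaussValSub_iff`
* `gaussValRes h : gaussValSub h →+* LaurentSeries k`
* `gaussValResTo h Fk hR3 : gaussValSub h →+* Fk` (codomain restricted, (R3) as a hypothesis)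
* `gaussValSub_mem_iff_const`, `gaussValResTo_algebraMap`, `gaussValResTo_eq_zero_iff`,
  `gaussValSub_scale`, `gaussValResTo_surjective`
-/
import Mathlib
import Fermat.Agent.Lib.GaussInt.ValGroup

set_option autoImplicit false

noncomputable section

namespace Fermat.Agent.GaussInt

open ModularCurve HahnSeries

variable {K : Type*} [Field K] [Algebra ℚ K]

/-- The standing hypotheses: `A` lies over the prime `ℓ` and `F₀` is generated by series integral
at `A`. -/
structure GaussHyp (A : ValuationSubring K) (F₀ : IntermediateField ℚ (LaurentSeries ℚ))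
    (ℓ : ℕ) : Prop where
  isPrime : ℓ.Prime
  liesOver : A.LiesOverPrime ℓ
  isIntGen : IsIntGen A F₀

variable {A : ValuationSubring K} {F₀ : IntermediateField ℚ (LaurentSeries ℚ)} {ℓ : ℕ}

/-- The modular function fields satisfy the standing hypotheses. -/
theorem gaussHyp_modular (N : ℕ) (hℓ : ℓ.Prime) (hA : A.LiesOverPrime ℓ) :
    GaussHyp A (modularFunctionFieldFull N) ℓ :=
  ⟨hℓ, hA, isIntGen_modularFunctionFieldFull N⟩

/-- The Gauss valuation ring of `F = laurentBaseChange K F₀`. -/
def gaussValSub (h : GaussHyp A F₀ ℓ) : ValuationSubring (laurentBaseChange K F₀) where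
  carrier := {f | (f : LaurentSeries K) ∈ gaussSub A (laurentBaseChange K F₀)}
  mul_mem' := fun {a b} ha hb => (gaussSub A (laurentBaseChange K F₀)).mul_mem ha hb
  one_mem' := (gaussSub A (laurentBaseChange K F₀)).one_mem
  add_mem' := fun {a b} ha hb => (gaussSub A (laurentBaseChange K F₀)).add_mem ha hb
  zero_mem' := (gaussSub A (laurentBaseChange K F₀)).zero_mem
  neg_mem' := fun {a} ha => (gaussSub A (laurentBaseChange K F₀)).neg_mem ha
  mem_or_inv_mem' := fun f => mem_or_inv_mem_gaussSub h.isPrime h.liesOver h.isIntGen f.2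

theorem mem_gaussValSub_iff (h : GaussHyp A F₀ ℓ) (f : laurentBaseChange K F₀) :
    f ∈ gaussValSub h ↔ (f : LaurentSeries K) ∈ gaussSub A (laurentBaseChange K F₀) := Iff.rfl

/-- The inclusion of the Gauss valuation ring into the Gauss ring. -/
def gaussValIncl (h : GaussHyp A F₀ ℓ) :
    gaussValSub h →+* gaussSub A (laurentBaseChange K F₀) where
  toFun f := ⟨(f : laurentBaseChange K F₀), f.2⟩
  map_one' := rfl
  map_mul' _ _ := rfl
  map_zero' := rfl
  map_add' _ _ := rfl

/-- The residue map of the Gauss valuation ring, with values in `k((q))`. -/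
def gaussValRes (h : GaussHyp A F₀ ℓ) :
    gaussValSub h →+* LaurentSeries (IsLocalRing.ResidueField A) :=
  (gaussRes A (laurentBaseChange K F₀)).comp (gaussValIncl h)

@[simp] theorem gaussValRes_apply (h : GaussHyp A F₀ ℓ) (f : gaussValSub h) :
    gaussValRes h f =
      gaussResFun A (laurentBaseChange K F₀) ((f : laurentBaseChange K F₀) : LaurentSeries K) :=
  rfl

/-- `O_v ∩ K = A` (shape of `RedSetup.mem_Ov_iff`). -/
theorem gaussValSub_mem_iff_const (h : GaussHyp A F₀ ℓ) (c : K) :
    algebraMap K (laurentBaseChange K F₀) c ∈ gaussValSub h ↔ c ∈ A := by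
  rw [mem_gaussValSub_iff]
  exact algebraMap_mem_gaussSub_iff

/-- Units of the Gauss valuation ring are the elements with nonzero residue. -/
theorem gaussValRes_eq_zero_iff (h : GaussHyp A F₀ ℓ) (f : gaussValSub h) :
    gaussValRes h f = 0 ↔ ¬ IsUnit f := by
  constructor
  · intro h0 hu
    have := hu.map (gaussValRes h)
    rw [h0] at this
    exact not_isUnit_zero this
  · intro hu
    by_contra hne
    apply hu
    have hinv := inv_mem_gaussSub f.2 hne
    have hf0 : (f : laurentBaseChange K F₀) ≠ 0 := by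
      intro h0
      apply hne
      rw [gaussValRes_apply, h0]
      exact map_zero (gaussRes A (laurentBaseChange K F₀))
    refine ⟨⟨f, ⟨(f : laurentBaseChange K F₀)⁻¹, hinv⟩, ?_, ?_⟩, rfl⟩
    · exact Subtype.ext (mul_inv_cancel₀ hf0)
    · exact Subtype.ext (inv_mul_cancel₀ hf0)

/-- The value group of `O_v` is the value group of `A` (shape of `RedSetup.scale`). -/
theorem gaussValSub_scale (h : GaussHyp A F₀ ℓ) (f : laurentBaseChange K F₀) (hf : f ≠ 0) :
    ∃ c : K, c ≠ 0 ∧ f * (algebraMap K (laurentBaseChange K F₀) c)⁻¹ ∈ gaussValSub h ∧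
      (f * (algebraMap K (laurentBaseChange K F₀) c)⁻¹)⁻¹ ∈ gaussValSub h := by
  obtain ⟨c, hc, hmem, hres⟩ := exists_const_mul_mem_gaussSub h.isPrime h.liesOver h.isIntGen f.2
    (fun h0 => hf (Subtype.ext h0))
  refine ⟨c⁻¹, inv_ne_zero hc, ?_, ?_⟩
  · rw [mem_gaussValSub_iff]
    have : ((f * (algebraMap K (laurentBaseChange K F₀) c⁻¹)⁻¹ : laurentBaseChange K F₀) :
        LaurentSeries K) = algebraMap K (LaurentSeries K) c * (f : LaurentSeries K) := by
      rw [map_inv₀, inv_inv, mul_comm]
      rfl
    rw [this]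
    exact hmem
  · rw [mem_gaussValSub_iff]
    have : (((f * (algebraMap K (laurentBaseChange K F₀) c⁻¹)⁻¹)⁻¹ : laurentBaseChange K F₀) :
        LaurentSeries K) = (algebraMap K (LaurentSeries K) c * (f : LaurentSeries K))⁻¹ := by
      rw [map_inv₀, inv_inv, mul_comm]
      rfl
    rw [this]
    exact inv_mem_gaussSub hmem hres

section Codomain

variable (h : GaussHyp A F₀ ℓ)
  (Fk : IntermediateField (IsLocalRing.ResidueField A) (LaurentSeries (IsLocalRing.ResidueField A)))
  (hR3 : ∀ f ∈ gaussSub A (laurentBaseChange K F₀),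
    gaussResFun A (laurentBaseChange K F₀) f ∈ Fk)

/-- The residue map of the Gauss valuation ring with values in a field `Fk ⊆ k((q))` containing
all residues ((R3) is a hypothesis). -/
def gaussValResTo : gaussValSub h →+* Fk :=
  (gaussValRes h).codRestrict Fk.toSubring fun f => hR3 _ f.2

@[simp] theorem coe_gaussValResTo (f : gaussValSub h) :
    ((gaussValResTo h Fk hR3 f : Fk) : LaurentSeries (IsLocalRing.ResidueField A)) =
      gaussResFun A (laurentBaseChange K F₀) ((f : laurentBaseChange K F₀) : LaurentSeries K) :=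
  rfl

set_option synthInstance.maxHeartbeats 400000 in
/-- shape of `RedSetup.ρ_algebraMap`. -/
theorem gaussValResTo_algebraMap (c : K) (hc : c ∈ A)
    (hc' : algebraMap K (laurentBaseChange K F₀) c ∈ gaussValSub h) :
    gaussValResTo h Fk hR3 ⟨algebraMap K (laurentBaseChange K F₀) c, hc'⟩ =
      algebraMap (IsLocalRing.ResidueField A) Fk (IsLocalRing.residue A ⟨c, hc⟩) := by
  apply Subtype.ext
  rw [coe_gaussValResTo]
  exact gaussResFun_algebraMap hc

/-- shape of `RedSetup.ρ_eq_zero_iff`. -/
theorem gaussValResTo_eq_zero_iff (f : gaussValSub h) :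
    gaussValResTo h Fk hR3 f = 0 ↔ ¬ IsUnit f := by
  rw [← gaussValRes_eq_zero_iff h f]
  constructor
  · intro h0
    have := congrArg (Subtype.val) h0
    exact this
  · intro h0
    exact Subtype.ext h0

/-- The residue map is onto `Fk` as soon as every element of `Fk` is a residue. -/
theorem gaussValResTo_surjective
    (hsurj : ∀ y ∈ Fk, ∃ f ∈ gaussSub A (laurentBaseChange K F₀),
      gaussResFun A (laurentBaseChange K F₀) f = y) :
    Function.Surjective (gaussValResTo h Fk hR3) := by
  rintro ⟨y, hy⟩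
  obtain ⟨f, hf, hfy⟩ := hsurj y hy
  exact ⟨⟨⟨f, mem_of_mem_gaussSub hf⟩, hf⟩, Subtype.ext hfy⟩

end Codomain

end Fermat.Agent.GaussInt
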