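/-
Cluster B (helper5): ECHELON bases.

Let `V` be a finitely generated `K`-subspace of `K((q))` all of whose elements are tame (have a
coefficient of maximal valuation).  Then `V` has an *echelon basis*: series `p n ∈ V`, `n ∈ s`
(`s` a finite set of pivot indices), with coefficients in `A` and
`(p n).coeff m = δ_{mn}` for `m, n ∈ s`.  In particular `p` is an orthonormal basis of `V` for the
Gauss norm: `∑ c n • p n` is integral iff all `c n ∈ A`.
-/
import Mathlib
import Fermat.Agent.Lib.GaussInt.Tame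

set_option autoImplicit false

noncomputable section

namespace Fermat.Agent.GaussInt

open ModularCurve HahnSeries

variable {K : Type*} [Field K] (A : ValuationSubring K)

/-- An echelon family in `V` with pivot set `s`. -/
structure IsEchelon (V : Submodule K (LaurentSeries K)) (s : Finset ℤ)
    (p : ℤ → LaurentSeries K) : Prop where
  mem : ∀ n ∈ s, p n ∈ V
  int : ∀ n ∈ s, ∀ m, (p n).coeff m ∈ A
  pivot : ∀ n ∈ s, ∀ m ∈ s, (p n).coeff m = if m = n then 1 else 0

variable {A}

theorem IsEchelon.coeff_sum {V : Submodule K (LaurentSeries K)} {s : Finset ℤ}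
    {p : ℤ → LaurentSeries K} (h : IsEchelon A V s p) (c : ℤ → K) {m : ℤ} (hm : m ∈ s) :
    (∑ n ∈ s, c n • p n).coeff m = c m := by
  classical
  rw [HahnSeries.coeff_sum]
  have : ∀ n ∈ s, (c n • p n).coeff m = if m = n then c n else 0 := by
    intro n hn
    rw [HahnSeries.coeff_smul, h.pivot n hn m hm, smul_eq_mul]
    split_ifs <;> simp
  rw [Finset.sum_congr rfl this, Finset.sum_ite_eq s m, if_pos hm]

/-- Extension step: an echelon family can be enlarged so that its span contains a given element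
of `V`. -/
theorem IsEchelon.extend {V : Submodule K (LaurentSeries K)}
    (hV : ∀ P ∈ V, IsTame A P) {s : Finset ℤ} {p : ℤ → LaurentSeries K}
    (h : IsEchelon A V s p) {v : LaurentSeries K} (hv : v ∈ V) :
    ∃ (s' : Finset ℤ) (p' : ℤ → LaurentSeries K), IsEchelon A V s' p' ∧
      Submodule.span K (p '' (s : Set ℤ)) ≤ Submodule.span K (p' '' (s' : Set ℤ)) ∧
      v ∈ Submodule.span K (p' '' (s' : Set ℤ)) := by
  classical
  set v' : LaurentSeries K := v - ∑ n ∈ s, v.coeff n • p n with hv'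
  have hsumV : ∑ n ∈ s, v.coeff n • p n ∈ V :=
    Submodule.sum_mem _ fun n hn => Submodule.smul_mem _ _ (h.mem n hn)
  have hv'V : v' ∈ V := Submodule.sub_mem _ hv hsumV
  have hsumspan : ∑ n ∈ s, v.coeff n • p n ∈ Submodule.span K (p '' (s : Set ℤ)) :=
    Submodule.sum_mem _ fun n hn =>
      Submodule.smul_mem _ _ (Submodule.subset_span ⟨n, hn, rfl⟩)
  by_cases hv0 : v' = 0
  · refine ⟨s, p, h, le_rfl, ?_⟩
    have : v = ∑ n ∈ s, v.coeff n • p n := by
      rw [← sub_eq_zero]
      exact hv0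
    rw [this]
    exact hsumspan
  -- the pivot of `v'`
  have hv's : ∀ m ∈ s, v'.coeff m = 0 := by
    intro m hm
    rw [hv', HahnSeries.coeff_sub, h.coeff_sum _ hm, sub_self]
  rcases hV v' hv'V with h0 | ⟨n₀, hn₀, hmax⟩
  · exact absurd h0 hv0
  have hn₀s : n₀ ∉ s := fun hmem => hn₀ (hv's n₀ hmem)
  set p₀ : LaurentSeries K := (v'.coeff n₀)⁻¹ • v' with hp₀
  have hp₀V : p₀ ∈ V := Submodule.smul_mem _ _ hv'V
  have hp₀int : ∀ m, p₀.coeff m ∈ A := by
    intro m
    rw [hp₀, HahnSeries.coeff_smul, smul_eq_mul, ← A.valuation_le_one_iff, map_mul, map_inv₀]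
    have hne : A.valuation (v'.coeff n₀) ≠ 0 := (Valuation.ne_zero_iff _).mpr hn₀
    rw [inv_mul_le_iff₀ (zero_lt_iff.mpr hne), mul_one]
    exact hmax m
  have hp₀n₀ : p₀.coeff n₀ = 1 := by
    rw [hp₀, HahnSeries.coeff_smul, smul_eq_mul, inv_mul_cancel₀ hn₀]
  have hp₀s : ∀ m ∈ s, p₀.coeff m = 0 := by
    intro m hm
    rw [hp₀, HahnSeries.coeff_smul, hv's m hm, smul_zero]
  set p' : ℤ → LaurentSeries K := fun n => if n = n₀ then p₀ else p n - (p n).coeff n₀ • p₀
    with hp'
  have hp'n₀ : p' n₀ = p₀ := by simp [hp']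
  have hp'n : ∀ n, n ≠ n₀ → p' n = p n - (p n).coeff n₀ • p₀ := fun n hn => by
    simp [hp', hn]
  have hne : ∀ n ∈ s, n ≠ n₀ := fun n hn h0 => hn₀s (h0 ▸ hn)
  have hech : IsEchelon A V (insert n₀ s) p' := by
    refine ⟨?_, ?_, ?_⟩
    · intro n hn
      rcases Finset.mem_insert.mp hn with rfl | hn
      · rw [hp'n₀]; exact hp₀V
      · rw [hp'n n (hne n hn)]
        exact Submodule.sub_mem _ (h.mem n hn) (Submodule.smul_mem _ _ hp₀V)
    · intro n hn m
      rcases Finset.mem_insert.mp hn with rfl | hn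
      · rw [hp'n₀]; exact hp₀int m
      · rw [hp'n n (hne n hn), HahnSeries.coeff_sub, HahnSeries.coeff_smul, smul_eq_mul]
        exact sub_mem (h.int n hn m) (mul_mem (h.int n hn n₀) (hp₀int m))
    · intro n hn m hm
      rcases Finset.mem_insert.mp hn with hnn | hn'
      · rw [hnn, hp'n₀]
        rcases Finset.mem_insert.mp hm with hmm | hm'
        · rw [hmm, hp₀n₀, if_pos rfl]
        · rw [hp₀s m hm', if_neg (hne m hm')]
      · rw [hp'n n (hne n hn'), HahnSeries.coeff_sub, HahnSeries.coeff_smul, smul_eq_mul]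
        rcases Finset.mem_insert.mp hm with hmm | hm'
        · rw [hmm, hp₀n₀, mul_one, sub_self, if_neg (Ne.symm (hne n hn'))]
        · rw [hp₀s m hm', mul_zero, sub_zero, h.pivot n hn' m hm']
  have hp₀span : p₀ ∈ Submodule.span K (p' '' ((insert n₀ s : Finset ℤ) : Set ℤ)) :=
    Submodule.subset_span ⟨n₀, Finset.mem_coe.mpr (Finset.mem_insert_self _ _), hp'n₀⟩
  have hle : Submodule.span K (p '' (s : Set ℤ)) ≤
      Submodule.span K (p' '' ((insert n₀ s : Finset ℤ) : Set ℤ)) := by
    rw [Submodule.span_le]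
    rintro _ ⟨n, hn, rfl⟩
    have h1 : p n = p' n + (p n).coeff n₀ • p₀ := by
      rw [hp'n n (hne n hn), sub_add_cancel]
    rw [h1]
    exact Submodule.add_mem _
      (Submodule.subset_span ⟨n, Finset.mem_coe.mpr (Finset.mem_insert_of_mem hn), rfl⟩)
      (Submodule.smul_mem _ _ hp₀span)
  refine ⟨insert n₀ s, p', hech, hle, ?_⟩
  have h2 : v = v'.coeff n₀ • p₀ + ∑ n ∈ s, v.coeff n • p n := by
    rw [hp₀, smul_smul, mul_inv_cancel₀ hn₀, one_smul, hv', sub_add_cancel]
  rw [h2]
  exact Submodule.add_mem _ (Submodule.smul_mem _ _ hp₀span) (hle hsumspan)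

/-- ECHELON BASIS: a finitely generated subspace all of whose elements are tame has an echelon
basis. -/
theorem exists_echelon {V : Submodule K (LaurentSeries K)} (hfg : V.FG)
    (hV : ∀ P ∈ V, IsTame A P) :
    ∃ (s : Finset ℤ) (p : ℤ → LaurentSeries K), IsEchelon A V s p ∧
      Submodule.span K (p '' (s : Set ℤ)) = V := by
  classical
  obtain ⟨t, ht⟩ := hfg
  have key : ∀ t' : Finset (LaurentSeries K), (∀ x ∈ t', x ∈ V) →
      ∃ (s : Finset ℤ) (p : ℤ → LaurentSeries K), IsEchelon A V s p ∧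
        Submodule.span K (t' : Set (LaurentSeries K)) ≤ Submodule.span K (p '' (s : Set ℤ)) := by
    intro t'
    induction t' using Finset.induction_on with
    | empty =>
      intro _
      refine ⟨∅, fun _ => 0, ⟨by simp, by simp, by simp⟩, ?_⟩
      simp
    | insert v t' _ ih =>
      intro hmem
      obtain ⟨s, p, hech, hle⟩ := ih fun x hx => hmem x (Finset.mem_insert_of_mem hx)
      obtain ⟨s', p', hech', hle', hv⟩ := hech.extend hV (hmem v (Finset.mem_insert_self _ _))
      refine ⟨s', p', hech', ?_⟩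
      rw [Finset.coe_insert, Submodule.span_insert, sup_le_iff]
      exact ⟨(Submodule.span_singleton_le_iff_mem _ _).mpr hv, hle.trans hle'⟩
  obtain ⟨s, p, hech, hle⟩ := key t fun x hx => by
    rw [← ht]
    exact Submodule.subset_span hx
  refine ⟨s, p, hech, le_antisymm ?_ (by rw [← ht]; exact hle)⟩
  rw [Submodule.span_le]
  rintro _ ⟨n, hn, rfl⟩
  exact hech.mem n hn

end Fermat.Agent.GaussInt
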