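/-
Cluster B (helper5): the Gauss valuation of `F = laurentBaseChange K F₀` as an instance of
helper79's abstract `Deuring.ValSetup`, with the LATTICE property `Deuring.HasLattice`.

Hypotheses that are NOT discharged here (they need `ℓ ∤ N`, degrees, Riemann-Roch):
* `hR3` / `hsurj` : the residues of the Gauss ring are exactly the elements of `Fk`,
* `hF`, `hFk`     : the Riemann-Roch package for `F / K` and `Fk / k`.
-/
import Mathlib
import Fermat.Agent.Lib.GaussInt.Lattice
import Fermat.Agent.Lib.Deuring.Setup

set_option autoImplicit false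
set_option synthInstance.maxHeartbeats 400000

noncomputable section

namespace Fermat.Agent.GaussInt

open ModularCurve HahnSeries AlgebraicCurve Fermat.Agent.RR Fermat.Agent.Deuring

variable {K : Type*} [Field K] [Algebra ℚ K]
variable {A : ValuationSubring K} {F₀ : IntermediateField ℚ (LaurentSeries ℚ)} {ℓ : ℕ}

section

variable (h : GaussHyp A F₀ ℓ)
  (Fk : IntermediateField (IsLocalRing.ResidueField A) (LaurentSeries (IsLocalRing.ResidueField A)))
  (hR3 : ∀ f ∈ gaussSub A (laurentBaseChange K F₀),
    gaussResFun A (laurentBaseChange K F₀) f ∈ Fk)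
  (hsurj : ∀ y ∈ Fk, ∃ f ∈ gaussSub A (laurentBaseChange K F₀),
    gaussResFun A (laurentBaseChange K F₀) f = y)
  (hF : IsRRField K (laurentBaseChange K F₀))
  (hFk : IsRRField (IsLocalRing.ResidueField A) Fk)

/-- The Gauss valuation as a constant reduction in the sense of `Deuring.ValSetup`. -/
def gaussValSetup :
    ValSetup K (laurentBaseChange K F₀) (IsLocalRing.ResidueField A) Fk where
  A := A
  Ov := gaussValSub h
  res := IsLocalRing.residue A
  ρ := gaussValResTo h Fk hR3
  hF := hF
  hFk := hFk
  res_surj := IsLocalRing.residue_surjective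
  ρ_surj := gaussValResTo_surjective h Fk hR3 hsurj
  mem_Ov_iff := gaussValSub_mem_iff_const h
  ρ_algebraMap := gaussValResTo_algebraMap h Fk hR3
  ρ_eq_zero_iff := gaussValResTo_eq_zero_iff h Fk hR3
  scale := gaussValSub_scale h

@[simp] theorem gaussValSetup_Ov : (gaussValSetup h Fk hR3 hsurj hF hFk).Ov = gaussValSub h := rfl

@[simp] theorem gaussValSetup_A : (gaussValSetup h Fk hR3 hsurj hF hFk).A = A := rfl

theorem coe_gaussValSetup_red {f : laurentBaseChange K F₀} (hf : f ∈ gaussValSub h) :
    (((gaussValSetup h Fk hR3 hsurj hF hFk).red f : Fk) :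
        LaurentSeries (IsLocalRing.ResidueField A)) =
      gaussResFun A (laurentBaseChange K F₀) (f : LaurentSeries K) := by
  unfold ValSetup.red
  rw [dif_pos (show f ∈ (gaussValSetup h Fk hR3 hsurj hF hFk).Ov from hf)]
  rfl

omit [Algebra ℚ K] in
theorem coe_smul_subfield (g : IsLocalRing.ResidueField A) (y : Fk) :
    ((g • y : Fk) : LaurentSeries (IsLocalRing.ResidueField A)) =
      algebraMap (IsLocalRing.ResidueField A) (LaurentSeries (IsLocalRing.ResidueField A)) g *
        (y : LaurentSeries (IsLocalRing.ResidueField A)) := by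
  rw [Algebra.smul_def]
  rfl

/-- The LATTICE property of the Gauss valuation. -/
theorem hasLattice_gaussValSetup : HasLattice (gaussValSetup h Fk hR3 hsurj hF hFk) := by
  intro W hW
  obtain ⟨n, w, hwW, hwO, hspan, hind⟩ := exists_orthonormal h W hW
  refine ⟨n, w, hwW, hwO, hspan, ?_⟩
  rw [Fintype.linearIndependent_iff]
  intro g hg i
  apply hind g _ i
  have key : ∑ i, algebraMap (IsLocalRing.ResidueField A)
      (LaurentSeries (IsLocalRing.ResidueField A)) (g i) *
        gaussResFun A (laurentBaseChange K F₀) ((w i : laurentBaseChange K F₀) :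
          LaurentSeries K) =
      ((∑ i, g i • (gaussValSetup h Fk hR3 hsurj hF hFk).red (w i) : Fk) :
        LaurentSeries (IsLocalRing.ResidueField A)) := by
    rw [AddSubmonoidClass.coe_finset_sum]
    refine Finset.sum_congr rfl fun j _ => ?_
    rw [coe_smul_subfield, coe_gaussValSetup_red h Fk hR3 hsurj hF hFk (hwO j)]
  rw [key, hg]
  rfl

end

end Fermat.Agent.GaussInt
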