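/-
Cluster B (helper5): the MODULAR instance of the Gauss valuation as a `Deuring.ValSetup`, with
the LATTICE property, UNCONDITIONAL.

For `ℓ ∤ N`, `A` a valuation ring of `ℚ̄` over `ℓ`, `k = A / m_A`:

* `modularValSetup A ℓ N hℓ hA hℓN :
     Deuring.ValSetup ℚ̄ (modularFunctionFieldBar N) k (modularFunctionFieldFullC k N)`
* `hasLattice_modularValSetup : Deuring.HasLattice (modularValSetup ..)`
* `modularValSetup_Ov`, `modularValSetup_A`, `coe_modularValSetup_ρ`, `coe_modularValSetup_red`
* `isAlgClosed_residue`, `infinite_residue` : the residue field is algebraically closed, infinite.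

Inputs: helper66's (R3) (`Lib/GaussVal/R3Final.lean`), helper19's Riemann-Roch packages
(`Lib/RR/OfModularBar.lean`, `Lib/RR/OfModularCFinal.lean`).
-/
import Mathlib
import Fermat.Agent.Lib.GaussInt.DeuringInst
import Fermat.Agent.Lib.GaussVal.R3Final
import Fermat.Agent.Lib.RR.OfModularBar
import Fermat.Agent.Lib.RR.OfModularCFinal

set_option autoImplicit false
set_option synthInstance.maxHeartbeats 400000

noncomputable section

namespace Fermat.Agent.GaussInt

open ModularCurve HahnSeries AlgebraicCurve Fermat.Agent.RR Fermat.Agent.Deuring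

variable (A : ValuationSubring (AlgebraicClosure ℚ)) (ℓ N : ℕ) [NeZero N]

/-- The residue field of a valuation ring of `ℚ̄` is algebraically closed. -/
theorem isAlgClosed_residue : IsAlgClosed (IsLocalRing.ResidueField A) :=
  Fermat.Agent.FrobTrace.isAlgClosed_residueField A

/-- The residue field of a valuation ring of `ℚ̄` is infinite. -/
theorem infinite_residue : Infinite (IsLocalRing.ResidueField A) :=
  haveI := isAlgClosed_residue A
  IsAlgClosed.instInfinite

variable (hℓ : ℓ.Prime) (hA : A.LiesOverPrime ℓ) (hℓN : ¬ ℓ ∣ N)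

/-- **The Gauss valuation of `F_N = ℚ̄(j(q^d) : d ∣ N)` at a place over `ℓ ∤ N`** as a constant
reduction in the sense of `Deuring.ValSetup`, with residue function field
`F_k = k(j(q^d) : d ∣ N)`. -/
def modularValSetup :
    ValSetup (AlgebraicClosure ℚ) (modularFunctionFieldBar N) (IsLocalRing.ResidueField A)
      (modularFunctionFieldFullC (IsLocalRing.ResidueField A) N) :=
  haveI := isAlgClosed_residue A
  gaussValSetup (gaussHyp_modular N hℓ hA) (modularFunctionFieldFullC (IsLocalRing.ResidueField A) N)
    (Fermat.Agent.GaussVal.gaussResFun_mem_fullC_of_isAlgClosed A ℓ N hℓ hA hℓN)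
    (Fermat.Agent.GaussVal.exists_gaussResFun_eq_of_mem A N)
    (Fermat.Agent.RRMod.isRRField_bar N)
    (Fermat.Agent.RRMod.isRRField_fullC' (IsLocalRing.ResidueField A) N)

@[simp] theorem modularValSetup_A : (modularValSetup A ℓ N hℓ hA hℓN).A = A := rfl

@[simp] theorem modularValSetup_Ov :
    (modularValSetup A ℓ N hℓ hA hℓN).Ov = gaussValSub (gaussHyp_modular N hℓ hA) := rfl

theorem mem_modularValSetup_Ov_iff (f : modularFunctionFieldBar N) :
    f ∈ (modularValSetup A ℓ N hℓ hA hℓN).Ov ↔
      (f : LaurentSeries (AlgebraicClosure ℚ)) ∈ gaussSub A (modularFunctionFieldBar N) :=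
  Iff.rfl

theorem modularValSetup_res :
    (modularValSetup A ℓ N hℓ hA hℓN).res = IsLocalRing.residue A := rfl

/-- The residue map of the modular setup is the residue map of the Gauss ring. -/
theorem coe_modularValSetup_ρ (f : modularFunctionFieldBar N)
    (hf : f ∈ (modularValSetup A ℓ N hℓ hA hℓN).Ov) :
    (((modularValSetup A ℓ N hℓ hA hℓN).ρ ⟨f, hf⟩ :
        modularFunctionFieldFullC (IsLocalRing.ResidueField A) N) :
        LaurentSeries (IsLocalRing.ResidueField A)) =
      gaussResFun A (modularFunctionFieldBar N) (f : LaurentSeries (AlgebraicClosure ℚ)) :=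
  rfl

theorem coe_modularValSetup_red {f : modularFunctionFieldBar N}
    (hf : (f : LaurentSeries (AlgebraicClosure ℚ)) ∈ gaussSub A (modularFunctionFieldBar N)) :
    (((modularValSetup A ℓ N hℓ hA hℓN).red f :
        modularFunctionFieldFullC (IsLocalRing.ResidueField A) N) :
        LaurentSeries (IsLocalRing.ResidueField A)) =
      gaussResFun A (modularFunctionFieldBar N) (f : LaurentSeries (AlgebraicClosure ℚ)) :=
  haveI := isAlgClosed_residue A
  coe_gaussValSetup_red (gaussHyp_modular N hℓ hA) _ _ _ _ _ hf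

/-- `ρ f = 1` in the setup iff the Gauss residue of `f` is `1`. -/
theorem modularValSetup_ρ_eq_one_iff (f : modularFunctionFieldBar N)
    (hf : f ∈ (modularValSetup A ℓ N hℓ hA hℓN).Ov) :
    (modularValSetup A ℓ N hℓ hA hℓN).ρ ⟨f, hf⟩ = 1 ↔
      gaussResFun A (modularFunctionFieldBar N) (f : LaurentSeries (AlgebraicClosure ℚ)) = 1 := by
  rw [← coe_modularValSetup_ρ A ℓ N hℓ hA hℓN f hf]
  constructor
  · intro h
    rw [h]
    rfl
  · intro h
    exact Subtype.ext h

/-- **LATTICE property of the modular Gauss valuation** (orthonormal bases). -/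
theorem hasLattice_modularValSetup : HasLattice (modularValSetup A ℓ N hℓ hA hℓN) :=
  haveI := isAlgClosed_residue A
  hasLattice_gaussValSetup (gaussHyp_modular N hℓ hA) _ _ _ _ _

end Fermat.Agent.GaussInt
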