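/-
Cluster B, chain step (4) (helper68): `GaussInt.KeyLemmaAt M` for the modular function field
`F_M = modularFunctionFieldBar M`, from

* the KEY LEMMA in function form (helper61 `S18Key.key_lemma`, helper85 `exists_pow_eq_of_valSetup`),
* Deuring's reduction map (helper79 `Deuring.exists_reduction`),
* the Gauss valuation as a `Deuring.ValSetup` with the LATTICE property (helper5
  `modularValSetup`, `hasLattice_modularValSetup`; (R3) by helper66),
* the base function builder `S18Key.nonempty_baseFn`,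

and the remaining GOOD REDUCTION input `BaseInputAt` (genus equality and a base function `x`
with `deg (x)_∞ ≤ deg (x̄)_∞`); for `x = j` this is `JInputAt`: genus equality and
`[F_M : ℚ̄(j)] ≤ [F_k : k(j̄)]`.
-/
import Mathlib
import Fermat.Agent.S18.BaseFnBuild
import Fermat.Agent.Lib.GaussInt.ModularInst
import Fermat.Agent.Lib.GaussInt.Interface
import Fermat.Agent.Lib.GoodRed.Modular
import Fermat.Agent.Lib.RR.Hurwitz.Count

set_option autoImplicit false
set_option synthInstance.maxHeartbeats 400000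
set_option maxHeartbeats 1000000
set_option linter.style.haveILetI false

noncomputable section

namespace Fermat.Agent.GaussInt

open ModularCurve AlgebraicCurve IntermediateField Fermat.Agent.RR Fermat.Agent.Deuring

section

variable (A : ValuationSubring (AlgebraicClosure ℚ)) (ℓ M : ℕ) [NeZero M]
  (hℓ : ℓ.Prime) (hA : A.LiesOverPrime ℓ) (hℓM : ¬ ℓ ∣ M)

/-- The GOOD REDUCTION input of the KEY LEMMA at `(M, ℓ, A)`: genus equality, and a base function
`x` in the Gauss valuation ring with transcendental reduction `x̄`, `F_k / k(x̄)` finite separable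
and `deg (x)_∞ ≤ deg (x̄)_∞`. -/
def BaseInputAt : Prop :=
  genusFF (AlgebraicClosure ℚ) ↥(modularFunctionFieldBar M) =
      genusFF (IsLocalRing.ResidueField A)
        ↥(modularFunctionFieldFullC (IsLocalRing.ResidueField A) M) ∧
    ∃ x : ↥(modularFunctionFieldBar M), x ∈ (modularValSetup A ℓ M hℓ hA hℓM).Ov ∧
      Transcendental (IsLocalRing.ResidueField A) ((modularValSetup A ℓ M hℓ hA hℓM).red x) ∧
      FiniteDimensional (IsLocalRing.ResidueField A)⟮(modularValSetup A ℓ M hℓ hA hℓM).red x⟯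
        ↥(modularFunctionFieldFullC (IsLocalRing.ResidueField A) M) ∧
      Algebra.IsSeparable (IsLocalRing.ResidueField A)⟮(modularValSetup A ℓ M hℓ hA hℓM).red x⟯
        ↥(modularFunctionFieldFullC (IsLocalRing.ResidueField A) M) ∧
      Divisor.degree (poleDiv (modularValSetup A ℓ M hℓ hA hℓM).hF x) ≤
        Divisor.degree (poleDiv (modularValSetup A ℓ M hℓ hA hℓM).hFk
          ((modularValSetup A ℓ M hℓ hA hℓM).red x))

/-- The same input with the degrees of the pole divisors replaced by field degrees: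
`x` transcendental with `[F_M : ℚ̄(x)] ≤ [F_k : k(x̄)]`. -/
theorem baseInputAt_of_finrank
    (hgen : genusFF (AlgebraicClosure ℚ) ↥(modularFunctionFieldBar M) =
      genusFF (IsLocalRing.ResidueField A)
        ↥(modularFunctionFieldFullC (IsLocalRing.ResidueField A) M))
    (x : ↥(modularFunctionFieldBar M)) (hx : x ∈ (modularValSetup A ℓ M hℓ hA hℓM).Ov)
    (hxt : Transcendental (AlgebraicClosure ℚ) x)
    (hxfd : FiniteDimensional (AlgebraicClosure ℚ)⟮x⟯ ↥(modularFunctionFieldBar M))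
    (hy : Transcendental (IsLocalRing.ResidueField A) ((modularValSetup A ℓ M hℓ hA hℓM).red x))
    (hfd : FiniteDimensional
      (IsLocalRing.ResidueField A)⟮(modularValSetup A ℓ M hℓ hA hℓM).red x⟯
        ↥(modularFunctionFieldFullC (IsLocalRing.ResidueField A) M))
    (hsep : Algebra.IsSeparable
      (IsLocalRing.ResidueField A)⟮(modularValSetup A ℓ M hℓ hA hℓM).red x⟯
        ↥(modularFunctionFieldFullC (IsLocalRing.ResidueField A) M))
    (hle : Module.finrank (AlgebraicClosure ℚ)⟮x⟯ ↥(modularFunctionFieldBar M) ≤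
      Module.finrank (IsLocalRing.ResidueField A)⟮(modularValSetup A ℓ M hℓ hA hℓM).red x⟯
        ↥(modularFunctionFieldFullC (IsLocalRing.ResidueField A) M)) :
    BaseInputAt A ℓ M hℓ hA hℓM := by
  refine ⟨hgen, x, hx, hy, hfd, hsep, ?_⟩
  rw [Fermat.Agent.RRHur.degree_poleDiv_eq_finrank (modularValSetup A ℓ M hℓ hA hℓM).hF hxt,
    Fermat.Agent.RRHur.degree_poleDiv_eq_finrank (modularValSetup A ℓ M hℓ hA hℓM).hFk hy]
  exact_mod_cast hle

/-- the reduction of `j` is `j̄`. -/
theorem modularValSetup_red_jBar :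
    (modularValSetup A ℓ M hℓ hA hℓM).red (Fermat.Agent.S24.jBar M) =
      Fermat.Agent.RRMod.jC (IsLocalRing.ResidueField A) M := by
  apply Subtype.ext
  rw [coe_modularValSetup_red A ℓ M hℓ hA hℓM
    ((mem_modularValSetup_Ov_iff A ℓ M hℓ hA hℓM _).mp
      (Fermat.Agent.GoodRed.jBar_mem_gaussValSub M hℓ hA)),
    Fermat.Agent.GoodRed.gaussResFun_jBar, Fermat.Agent.RRMod.coe_jC]

/-- The GOOD REDUCTION input for the base function `j`: genus equality and
`[F_M : ℚ̄(j)] ≤ [F_k : k(j̄)]`. -/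
def JInputAt : Prop :=
  genusFF (AlgebraicClosure ℚ) ↥(modularFunctionFieldBar M) =
      genusFF (IsLocalRing.ResidueField A)
        ↥(modularFunctionFieldFullC (IsLocalRing.ResidueField A) M) ∧
    Module.finrank (AlgebraicClosure ℚ)⟮Fermat.Agent.S24.jBar M⟯ ↥(modularFunctionFieldBar M) ≤
      Module.finrank
        (IsLocalRing.ResidueField A)⟮Fermat.Agent.RRMod.jC (IsLocalRing.ResidueField A) M⟯
        ↥(modularFunctionFieldFullC (IsLocalRing.ResidueField A) M)

theorem baseInputAt_of_jInputAt (h : JInputAt A M) : BaseInputAt A ℓ M hℓ hA hℓM := by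
  haveI : IsAlgClosed (IsLocalRing.ResidueField A) := isAlgClosed_residue A
  have hred := modularValSetup_red_jBar A ℓ M hℓ hA hℓM
  refine baseInputAt_of_finrank A ℓ M hℓ hA hℓM h.1 (Fermat.Agent.S24.jBar M)
    (Fermat.Agent.GoodRed.jBar_mem_gaussValSub M hℓ hA)
    (Fermat.Agent.S24.transcendental_jBar M)
    (Fermat.Agent.S24.finiteDimensional_adjoin_jBar M) ?_ ?_ ?_ ?_
  · rw [hred]
    exact Fermat.Agent.RRMod.transcendental_jC (IsLocalRing.ResidueField A) M
  · rw [hred]
    exact Fermat.Agent.RRMod.finiteDimensional_fullC' (IsLocalRing.ResidueField A) M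
  · rw [hred]
    exact Fermat.Agent.RRMod.isSeparable_fullC' (IsLocalRing.ResidueField A) M
  · rw [hred]
    exact h.2

end

/-- a natural number prime to `ℓ` is a unit of a valuation ring over `ℓ`. -/
theorem natCast_inv_mem_of_not_dvd {L : Type*} [Field L] (A : ValuationSubring L) {ℓ n : ℕ}
    (hℓ : ℓ.Prime) (hA : A.LiesOverPrime ℓ) (hn : ¬ ℓ ∣ n) : ((n : L))⁻¹ ∈ A := by
  haveI : Fact ℓ.Prime := ⟨hℓ⟩
  have hcop : n.Coprime ℓ := ((Nat.Prime.coprime_iff_not_dvd hℓ).mpr hn).symm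
  have hu := Fermat.Agent.GaussVal.natCast_isUnit_of_coprime A ℓ hA hcop
  obtain ⟨u, hu⟩ := hu
  have h1 : ((↑u⁻¹ : A) : L) * (n : L) = 1 := by
    have h2 := congrArg Subtype.val u.inv_mul
    rw [hu] at h2
    simpa using h2
  have h3 : ((n : L))⁻¹ = ((↑u⁻¹ : A) : L) := (eq_inv_of_mul_eq_one_left h1).symm
  rw [h3]
  exact (↑u⁻¹ : A).2

/-- **Chain step (4)**: the KEY LEMMA at level `M` from the good reduction input. -/
theorem keyLemmaAt_of_baseInput (M : ℕ) [NeZero M]
    (h : ∀ (ℓ : ℕ) (hℓ : ℓ.Prime) (A : ValuationSubring (AlgebraicClosure ℚ))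
      (hA : A.LiesOverPrime ℓ) (hℓM : ¬ ℓ ∣ M), BaseInputAt A ℓ M hℓ hA hℓM) :
    KeyLemmaAt M := by
  intro n ℓ hℓ hℓMn A hA g _ hdiv hgO hgres
  have hℓM : ¬ ℓ ∣ M := fun h => hℓMn (h.mul_right n)
  have hℓn : ¬ ℓ ∣ n := fun h => hℓMn (h.mul_left M)
  haveI : IsAlgClosed (IsLocalRing.ResidueField A) := isAlgClosed_residue A
  haveI : Infinite (IsLocalRing.ResidueField A) := infinite_residue A
  obtain ⟨hgen, x, hx, hy, hfd, hsep, hle⟩ := h ℓ hℓ A hA hℓM
  have hn0 : ((n : ℕ) : AlgebraicClosure ℚ) ≠ 0 :=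
    Nat.cast_ne_zero.mpr (fun h0 => hℓn (h0 ▸ dvd_zero ℓ))
  have hnA : ((n : AlgebraicClosure ℚ))⁻¹ ∈ (modularValSetup A ℓ M hℓ hA hℓM).A :=
    natCast_inv_mem_of_not_dvd A hℓ hA hℓn
  have hgO' : g ∈ (modularValSetup A ℓ M hℓ hA hℓM).Ov := hgO
  have hρ : (modularValSetup A ℓ M hℓ hA hℓM).ρ ⟨g, hgO'⟩ = 1 :=
    (modularValSetup_ρ_eq_one_iff A ℓ M hℓ hA hℓM g hgO').mpr hgres
  exact Fermat.Agent.S18Key.exists_pow_eq_of_valSetup (modularValSetup A ℓ M hℓ hA hℓM)
    (hasLattice_modularValSetup A ℓ M hℓ hA hℓM) hgen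
    (fun r hpush hGR hdeg =>
      Fermat.Agent.S18Key.nonempty_baseFn (modularValSetup A ℓ M hℓ hA hℓM) r hpush hGR hdeg
        x hx hy hle)
    n hn0 hnA g hgO' hρ hdiv

/-- **Chain step (4)**, with `j` as base function at every prime. -/
theorem keyLemmaAt_of_jInput (M : ℕ) [NeZero M]
    (h : ∀ (ℓ : ℕ), ℓ.Prime → ∀ A : ValuationSubring (AlgebraicClosure ℚ),
      A.LiesOverPrime ℓ → ¬ ℓ ∣ M → JInputAt A M) :
    KeyLemmaAt M :=
  keyLemmaAt_of_baseInput M fun ℓ hℓ A hA hℓM =>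
    baseInputAt_of_jInputAt A ℓ M hℓ hA hℓM (h ℓ hℓ A hA hℓM)

end Fermat.Agent.GaussInt
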