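/-
Cluster B (helper5): ASSEMBLY  `KeyLemmaAt N` + `ValueGroupAt N`  ⟹  `F3G.InertiaPow N`
(hence `F3.TorsionUnramified N` by helper42's `torsionUnramified_of_inertiaPow`).

`f = c⁻¹ w` with `w` a unit of the Gauss ring; for `τ` in the inertia group `g := τ w / w` lies in
the Gauss ring with residue `1`, and its divisor is `n (τ D - D)`; the KEY LEMMA gives `g = hⁿ`,
and `τ f / f = (c / τ c) hⁿ` is an `n`-th power because `ℚ̄` is algebraically closed.
-/
import Mathlib
import Fermat.Agent.Lib.GaussInt.Interface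
import Fermat.Agent.Lib.GaussInt.Galois
import Fermat.Agent.F3.Galois.TorsionReduce

set_option autoImplicit false

noncomputable section

namespace Fermat.Agent.GaussInt

open ModularCurve AlgebraicCurve HahnSeries Fermat.Agent.F3 Fermat.Agent.F3G

/-- Nonzero constants have order zero at every place. -/
theorem place_ord_algebraMap {K F : Type*} [Field K] [Field F] [Algebra K F] (v : Place K F)
    {c : K} (hc : c ≠ 0) : v.ord (algebraMap K F c) = 0 := by
  have h1 : algebraMap K F c * algebraMap K F c⁻¹ = 1 := by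
    rw [← map_mul, mul_inv_cancel₀ hc, map_one]
  have h2 : algebraMap K F c⁻¹ * algebraMap K F c = 1 := by
    rw [mul_comm]; exact h1
  let u : v.toValuationSubringˣ :=
    ⟨⟨algebraMap K F c, v.algebraMap_mem' c⟩, ⟨algebraMap K F c⁻¹, v.algebraMap_mem' c⁻¹⟩,
      Subtype.ext h1, Subtype.ext h2⟩
  exact v.ord_coe_unit u

local notation "Qb" => AlgebraicClosure ℚ

variable {N : ℕ} [NeZero N]

/-- ASSEMBLY: the KEY LEMMA and the value group statement give the function form of
"inertia acts trivially on torsion". -/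
theorem inertiaPow_of_keyLemma (hKL : KeyLemmaAt N) (hVG : ValueGroupAt N) : InertiaPow N := by
  intro n ℓ hℓ hndvd A hA τ hτ f hf D hD
  have hn : n ≠ 0 := by
    rintro rfl
    exact hndvd (by simp)
  set F := modularFunctionFieldBar N with hFdef
  set G := arithmeticGalois (modularFunctionFieldFull N) τ with hG
  have hstab : ∀ y ∈ F, coeffMap ((τ : Qb ≃ₐ[ℚ] Qb) : Qb →+* Qb) y ∈ F := fun y hy =>
    coeffMap_mem_laurentBaseChange τ hy
  obtain ⟨c, hc0, hmem, hres⟩ := hVG ℓ hℓ A hA f hf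
  -- the normalised function `w = c f`
  set w : F := algebraMap Qb F c * f with hw
  have hwcoe : (w : LaurentSeries Qb) = algebraMap Qb (LaurentSeries Qb) c * (f : LaurentSeries Qb) :=
    rfl
  have hw0 : w ≠ 0 := mul_ne_zero (by simpa using hc0) hf
  have hwmem : (w : LaurentSeries Qb) ∈ gaussSub A F := hmem
  have hwres : gaussResFun A F (w : LaurentSeries Qb) ≠ 0 := hres
  -- `τ w`
  have hτcoe : ((G • w : F) : LaurentSeries Qb) =
      coeffMap ((τ : Qb ≃ₐ[ℚ] Qb) : Qb →+* Qb) (w : LaurentSeries Qb) :=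
    coe_arithmeticGalois_smul _ τ w
  have hτmem : ((G • w : F) : LaurentSeries Qb) ∈ gaussSub A F := by
    rw [hτcoe]
    exact coeffMap_mem_gaussSub_of_inertia τ hτ hstab hwmem
  have hτres : gaussResFun A F ((G • w : F) : LaurentSeries Qb) =
      gaussResFun A F (w : LaurentSeries Qb) := by
    rw [hτcoe]
    exact gaussResFun_inertia τ hτ hstab hwmem
  have hτw0 : G • w ≠ 0 := by simpa using hw0
  -- `g = τ w / w`
  set g : F := (G • w) * w⁻¹ with hg
  have hg0 : g ≠ 0 := mul_ne_zero hτw0 (inv_ne_zero hw0)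
  have hinvmem : ((w⁻¹ : F) : LaurentSeries Qb) ∈ gaussSub A F := by
    have : ((w⁻¹ : F) : LaurentSeries Qb) = (w : LaurentSeries Qb)⁻¹ := rfl
    rw [this]
    exact inv_mem_gaussSub hwmem hwres
  have hgmem : (g : LaurentSeries Qb) ∈ gaussSub A F :=
    (gaussSub A F).mul_mem hτmem hinvmem
  have hgres : gaussResFun A F (g : LaurentSeries Qb) = 1 := by
    have h1 : gaussRes A F (⟨_, hτmem⟩ * ⟨_, hinvmem⟩) =
        gaussRes A F ⟨_, hτmem⟩ * gaussRes A F ⟨_, hinvmem⟩ := map_mul _ _ _
    have h2 : gaussResFun A F ((w⁻¹ : F) : LaurentSeries Qb) =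
        (gaussResFun A F (w : LaurentSeries Qb))⁻¹ := gaussResFun_inv hwmem hwres
    have h3 : gaussResFun A F (g : LaurentSeries Qb) =
        gaussResFun A F ((G • w : F) : LaurentSeries Qb) *
          gaussResFun A F ((w⁻¹ : F) : LaurentSeries Qb) := h1
    rw [h3, hτres, h2, mul_inv_cancel₀ hwres]
  -- divisibility of the divisor of `g`
  have hcF : (algebraMap Qb F c) ≠ 0 := by simpa using hc0
  have hordw : ∀ v : Place Qb F, v.ord w = v.ord f := fun v => by
    rw [hw, v.ord_mul hcF hf, place_ord_algebraMap v hc0, zero_add]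
  have hDw : ∀ v : Place Qb F, (n : ℤ) * (D : Divisor Qb F) v = v.ord w := fun v => by
    rw [hordw, hD]
  have hdvd : ∀ P : Place Qb F, (n : ℤ) ∣ P.ord g := by
    intro P
    have h1 := mul_smul_divisor_apply_eq_ord G (n : ℤ) hDw P
    rw [hg, P.ord_mul hτw0 (inv_ne_zero hw0), P.ord_inv, ← h1, ← hDw P]
    exact ⟨(G • (D : Divisor Qb F)) P - (D : Divisor Qb F) P, by ring⟩
  obtain ⟨h, hh⟩ := hKL n ℓ hℓ hndvd A hA g hg0 hdvd hgmem hgres
  -- the constant factor
  have hτc0 : τ c ≠ 0 := by simpa using hc0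
  obtain ⟨b, hb⟩ := IsAlgClosed.exists_pow_nat_eq (c / τ c) (Nat.pos_of_ne_zero hn)
  refine ⟨algebraMap Qb F b * h, ?_⟩
  have hGw : G • w = algebraMap Qb F (τ c) * (G • f) := by
    rw [hw, smul_mul']
    congr 1
    exact SemilinearAut.smul_algebraMap G c
  have hgw : g * w = G • w := by
    rw [hg, mul_assoc, inv_mul_cancel₀ hw0, mul_one]
  have hτcF : algebraMap Qb F (τ c) ≠ 0 := by simpa using hτc0
  show (algebraMap Qb F b * h) ^ n * f = G • f
  have e1 : algebraMap Qb F (τ c) * ((algebraMap Qb F b * h) ^ n * f) =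
      algebraMap Qb F (τ c) * (G • f) := by
    rw [← hGw, ← hgw, ← hh, hw, mul_pow, ← map_pow, hb, map_div₀]
    field_simp
  exact mul_left_cancel₀ hτcF e1

/-- `KeyLemmaAt N` + `ValueGroupAt N` ⟹ `F3.TorsionUnramified N`. -/
theorem torsionUnramified_of_keyLemma (hKL : KeyLemmaAt N) (hVG : ValueGroupAt N) :
    TorsionUnramified N :=
  torsionUnramified_of_inertiaPow (inertiaPow_of_keyLemma hKL hVG)

end Fermat.Agent.GaussInt
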