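/-
Cluster B (helper30): ASSEMBLY
  `KeyLemmaAt N` + `ValueGroupAt N` + `NormProductFormula N ℓ` (Kronecker, helper20)
    + `HeckeInputsAlong ℚ̄ N ℓ` (helper76)   ⟹   `F3G.FrobPow N`
(hence `F3.TorsionFrobQuadratic N` by helper42's `torsionFrobQuadratic_of_frobPow`).

For `x ∈ F^×` put `Φ x := T_ℓ x / (σ x · (σ⁻¹ x)^ℓ)`, `σ` a Frobenius element at a place `A` over
`ℓ`.  `Φ` is multiplicative.  For an integral element `y = emb Y` the Kronecker congruence gives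
presentations of `T_ℓ y` and of `σ y · (σ⁻¹ y)^ℓ` with the same reduction
`Ȳ^{(ℓ)}(q) · Ȳ(q^ℓ)` (`exists_red_eq`); hence `Φ w` lies in the Gauss ring with residue `1` for
every unit `w` of the Gauss ring (`frobRatio_mem_gaussSub`).  Its divisor is divisible by `n` when
the divisor of `w` is, so the KEY LEMMA makes it an `n`-th power; constants are `n`-th powers
because `ℚ̄` is algebraically closed.
-/
import Mathlib
import Fermat.Agent.Lib.GaussInt.FrobFormal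
import Fermat.Agent.Lib.GaussInt.Interface
import Fermat.Agent.Lib.GaussInt.Unramified
import Fermat.Agent.Lib.Kronecker.ProdDefs
import Fermat.Agent.F3.Galois.TorsionReduce

set_option autoImplicit false
set_option linter.style.haveILetI false

noncomputable section

namespace Fermat.Agent.GaussIntFP

open ModularCurve AlgebraicCurve HahnSeries Fermat.Agent.F3 Fermat.Agent.F3G
  Fermat.Agent.GaussInt Fermat.Agent.Kronecker

local notation "Qb" => AlgebraicClosure ℚ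

variable {N : ℕ} [NeZero N]

/-- `σ x · (σ⁻¹ x)^ℓ`. -/
def frobDen (N : ℕ) (ℓ : ℕ) (σ : GQ) (x : FBar N) : FBar N :=
  galFun N σ x * galFun N σ⁻¹ x ^ ℓ

theorem frobDen_mul (ℓ : ℕ) (σ : GQ) (x y : FBar N) :
    frobDen N ℓ σ (x * y) = frobDen N ℓ σ x * frobDen N ℓ σ y := by
  unfold frobDen galFun
  rw [smul_mul', smul_mul', mul_pow]
  ring

theorem frobDen_ne_zero (ℓ : ℕ) (σ : GQ) {x : FBar N} (hx : x ≠ 0) : frobDen N ℓ σ x ≠ 0 := by
  unfold frobDen galFun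
  refine mul_ne_zero ?_ (pow_ne_zero _ ?_)
  · simpa using hx
  · simpa using hx

theorem coe_galFun (σ : GQ) (x : FBar N) :
    ((galFun N σ x : FBar N) : LaurentSeries Qb) =
      coeffMap ((σ : Qb ≃ₐ[ℚ] Qb) : Qb →+* Qb) (x : LaurentSeries Qb) :=
  coe_arithmeticGalois_smul _ σ x

theorem coe_frobDen (ℓ : ℕ) (σ : GQ) (x : FBar N) :
    ((frobDen N ℓ σ x : FBar N) : LaurentSeries Qb) =
      coeffMap ((σ : Qb ≃ₐ[ℚ] Qb) : Qb →+* Qb) (x : LaurentSeries Qb) *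
        coeffMap (((σ⁻¹ : GQ) : Qb ≃ₐ[ℚ] Qb) : Qb →+* Qb) (x : LaurentSeries Qb) ^ ℓ :=
  rfl

theorem frobDen_algebraMap (ℓ : ℕ) (σ : GQ) (c : Qb) :
    frobDen N ℓ σ (algebraMap Qb (FBar N) c) = algebraMap Qb (FBar N) (σ c * (σ⁻¹ c) ^ ℓ) := by
  unfold frobDen galFun
  rw [SemilinearAut.smul_algebraMap, SemilinearAut.smul_algebraMap, map_mul, map_pow]
  rfl

section Pres

variable (A : ValuationSubring Qb) (ℓ : ℕ) [NeZero ℓ] [Fact ℓ.Prime]
  [CharP (IsLocalRing.ResidueField A) ℓ]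

/-- For an integral element `y = emb Y` of `F`: series `T`, `S` with coefficients in `A`
representing `T_ℓ y` and `σ y · (σ⁻¹ y)^ℓ`, with the same reduction. -/
theorem exists_red_eq (hP : NormProductFormula N ℓ) {σ : GQ} (hσ : A.IsFrobeniusAt σ ℓ)
    (y : FBar N) (Y : LaurentSeries A) (hy : (y : LaurentSeries Qb) = emb A Y) :
    ∃ T S : LaurentSeries A,
      emb A T = ((heckeFun Qb N ℓ y : FBar N) : LaurentSeries Qb) ∧
      emb A S = ((frobDen N ℓ σ y : FBar N) : LaurentSeries Qb) ∧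
      red A T = red A S ∧ (red A Y ≠ 0 → red A T ≠ 0) := by
  obtain ⟨ζ, hζ, hprod⟩ := hP
  obtain ⟨W, hW, hWred⟩ := exists_kronecker_series A ℓ ζ hζ Y
  obtain ⟨S, Z, hS, hZ, hSred, hZred⟩ := exists_frob_series A ℓ hσ Y
  have hT : red A (qExpand A ℓ Y * W) =
      qExpand (IsLocalRing.ResidueField A) ℓ (red A Y) *
        coeffMap (frobenius (IsLocalRing.ResidueField A) ℓ) (red A Y) := by
    rw [map_mul, red_qExpand, hWred]
  refine ⟨qExpand A ℓ Y * W, S * Z ^ ℓ, ?_, ?_, ?_, ?_⟩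
  · apply qExpand_injective (R := Qb) ℓ
    rw [hprod y, map_mul, emb_qExpand, map_mul, qExpand_qExpand, hW, hy]
  · rw [coe_frobDen, map_mul, map_pow, hS, hZ, hy]
  · rw [hT, map_mul, hSred, hZred, mul_comm]
  · intro hY
    rw [hT]
    refine mul_ne_zero ?_ ?_
    · intro h0
      exact hY (qExpand_injective (R := IsLocalRing.ResidueField A) ℓ (by rw [h0, map_zero]))
    · intro h0
      exact hY (coeffMap_injective_of_injective _
        (frobenius (IsLocalRing.ResidueField A) ℓ).injective (by rw [h0, map_zero]))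

/-- For a unit `w` of the Gauss ring, `Φ w = T_ℓ w / (σ w · (σ⁻¹ w)^ℓ)` lies in the Gauss ring and
has residue `1`. -/
theorem frobRatio_mem_gaussSub (hP : NormProductFormula N ℓ) {σ : GQ}
    (hσ : A.IsFrobeniusAt σ ℓ) (w : FBar N)
    (hwmem : (w : LaurentSeries Qb) ∈ gaussSub A (modularFunctionFieldBar N))
    (hwres : gaussResFun A (modularFunctionFieldBar N) (w : LaurentSeries Qb) ≠ 0) :
    ((heckeFun Qb N ℓ w * (frobDen N ℓ σ w)⁻¹ : FBar N) : LaurentSeries Qb) ∈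
        gaussSub A (modularFunctionFieldBar N) ∧
      gaussResFun A (modularFunctionFieldBar N)
        ((heckeFun Qb N ℓ w * (frobDen N ℓ σ w)⁻¹ : FBar N) : LaurentSeries Qb) = 1 := by
  obtain ⟨Y₁, Y₂, hpres⟩ := hwmem
  have hY₁ : red A Y₁ ≠ 0 := by
    intro h0
    apply hwres
    rw [gaussResFun_eq hpres, h0, zero_div]
  have hw0 : w ≠ 0 := by
    rintro rfl
    apply hwres
    exact map_zero (gaussRes A (modularFunctionFieldBar N))
  -- the integral elements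
  set y₁ : FBar N := ⟨emb A Y₁, hpres.mem₁⟩ with hy₁
  set y₂ : FBar N := ⟨emb A Y₂, hpres.mem₂⟩ with hy₂
  have hrel : w * y₂ = y₁ := Subtype.ext hpres.eq
  have hy₂0 : y₂ ≠ 0 := by
    intro h0
    exact hpres.emb_ne_zero (congrArg Subtype.val h0)
  obtain ⟨T₁, S₁, hT₁, hS₁, hred₁, hne₁⟩ := exists_red_eq A ℓ hP hσ y₁ Y₁ rfl
  obtain ⟨T₂, S₂, hT₂, hS₂, hred₂, hne₂⟩ := exists_red_eq A ℓ hP hσ y₂ Y₂ rfl
  have hD0 : frobDen N ℓ σ w ≠ 0 := frobDen_ne_zero ℓ σ hw0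
  have hTrel : heckeFun Qb N ℓ w * heckeFun Qb N ℓ y₂ = heckeFun Qb N ℓ y₁ := by
    rw [← map_mul, hrel]
  have hSrel : frobDen N ℓ σ w * frobDen N ℓ σ y₂ = frobDen N ℓ σ y₁ := by
    rw [← frobDen_mul, hrel]
  have hpresg : IsPres A (modularFunctionFieldBar N)
      ((heckeFun Qb N ℓ w * (frobDen N ℓ σ w)⁻¹ : FBar N) : LaurentSeries Qb)
      (T₁ * S₂) (T₂ * S₁) := by
    refine ⟨?_, ?_, ?_, ?_⟩
    · rw [map_mul, hT₁, hS₂]
      exact (heckeFun Qb N ℓ y₁ * frobDen N ℓ σ y₂ : FBar N).2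
    · rw [map_mul, hT₂, hS₁]
      exact (heckeFun Qb N ℓ y₂ * frobDen N ℓ σ y₁ : FBar N).2
    · rw [map_mul]
      refine mul_ne_zero (hne₂ hpres.prim) ?_
      rw [← hred₁]
      exact hne₁ hY₁
    · rw [map_mul, map_mul, hT₁, hS₂, hT₂, hS₁]
      have key : (heckeFun Qb N ℓ w * (frobDen N ℓ σ w)⁻¹) *
          (heckeFun Qb N ℓ y₂ * frobDen N ℓ σ y₁) =
            heckeFun Qb N ℓ y₁ * frobDen N ℓ σ y₂ := by
        rw [← hTrel, ← hSrel]
        field_simp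
      exact congrArg Subtype.val key
  refine ⟨hpresg.mem_gaussSub, ?_⟩
  rw [gaussResFun_eq hpresg, map_mul, map_mul, hred₁, hred₂, mul_comm]
  refine div_self (mul_ne_zero ?_ ?_)
  · rw [← hred₂]
    exact hne₂ hpres.prim
  · rw [← hred₁]
    exact hne₁ hY₁

end Pres

section Constants

variable (ℓ : ℕ) [NeZero ℓ]

/-- `T_ℓ` of a constant is a constant. -/
theorem heckeFun_algebraMap (c : Qb) :
    ∃ d : ℕ, heckeFun Qb N ℓ (algebraMap Qb (FBar N) c) = algebraMap Qb (FBar N) (c ^ d) := by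
  letI := algebraAlong (heckeAlphaBar Qb N ℓ)
  haveI := isScalarTower_along (heckeAlphaBar Qb N ℓ)
  refine ⟨Module.finrank (FBar N) (laurentBaseChange Qb (modularFunctionFieldFull (N * ℓ))), ?_⟩
  rw [heckeFun_apply, AlgHom.commutes, map_pow]
  have h1 : algebraMap Qb (laurentBaseChange Qb (modularFunctionFieldFull (N * ℓ))) c =
      algebraMap (FBar N) (laurentBaseChange Qb (modularFunctionFieldFull (N * ℓ)))
        (algebraMap Qb (FBar N) c) :=
    IsScalarTower.algebraMap_apply Qb (FBar N) _ c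
  rw [h1]
  exact Algebra.norm_algebraMap (algebraMap Qb (FBar N) c)

end Constants

section Assembly

/-- ASSEMBLY: the KEY LEMMA, the value group statement, the product formula for the norm
(Kronecker) and the Hecke inputs give the function form of the Eichler--Shimura relation. -/
theorem frobPow_of_keyLemma (hKL : KeyLemmaAt N) (hVG : ValueGroupAt N)
    (hP : ∀ (ℓ : ℕ) [NeZero ℓ], ℓ.Prime → ¬ ℓ ∣ N → NormProductFormula N ℓ)
    (hin : ∀ ℓ : Nat.Primes,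
      (haveI : NeZero (ℓ : ℕ) := ⟨ℓ.2.ne_zero⟩; HeckeInputsAlong Qb N ℓ)) :
    FrobPow N := by
  intro n ℓ hℓ hndvd A hA σ hσ f hf D hD
  haveI : NeZero ℓ := ⟨hℓ.ne_zero⟩
  haveI : Fact ℓ.Prime := ⟨hℓ⟩
  haveI : CharP (IsLocalRing.ResidueField A) ℓ := charP_residue_of_liesOver A hℓ hA
  have hn : n ≠ 0 := by
    rintro rfl
    exact hndvd (by simp)
  have hℓN : ¬ ℓ ∣ N := fun h => hndvd (Dvd.dvd.mul_right h n)
  have hPℓ : NormProductFormula N ℓ := hP ℓ hℓ hℓN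
  have hinℓ : HeckeInputsAlong Qb N ℓ := hin ⟨ℓ, hℓ⟩
  set F := modularFunctionFieldBar N with hFdef
  obtain ⟨c, hc0, hmem, hres⟩ := hVG ℓ hℓ A hA f hf
  -- the normalised function `w = c f`
  set w : F := algebraMap Qb F c * f with hw
  have hcF : (algebraMap Qb F c) ≠ 0 := by simpa using hc0
  have hw0 : w ≠ 0 := mul_ne_zero hcF hf
  have hwmem : (w : LaurentSeries Qb) ∈ gaussSub A F := hmem
  have hwres : gaussResFun A F (w : LaurentSeries Qb) ≠ 0 := hres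
  -- `g = Φ w`
  obtain ⟨hgmem, hgres⟩ := frobRatio_mem_gaussSub A ℓ hPℓ hσ w hwmem hwres
  set g : F := heckeFun Qb N ℓ w * (frobDen N ℓ σ w)⁻¹ with hg
  have hTw0 : heckeFun Qb N ℓ w ≠ 0 := heckeFun_ne_zero hinℓ hw0
  have hDw0 : frobDen N ℓ σ w ≠ 0 := frobDen_ne_zero ℓ σ hw0
  have hg0 : g ≠ 0 := mul_ne_zero hTw0 (inv_ne_zero hDw0)
  -- divisibility of the divisor of `g`
  have hordw : ∀ v : Place Qb F, v.ord w = v.ord f := fun v => by
    rw [hw, v.ord_mul hcF hf, place_ord_algebraMap v hc0, zero_add]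
  have hDw : ∀ v : Place Qb F, (n : ℤ) * (D : Divisor Qb F) v = v.ord w := fun v => by
    rw [hordw, hD]
  obtain ⟨E, -, hE⟩ := heckeOperatorAlong_mk_of_zsmul_eq_div (ℓ := ℓ) hinℓ D (n : ℤ) hw0 hDw
  have hσw0 : galFun N σ w ≠ 0 := by
    show arithmeticGalois (modularFunctionFieldFull N) σ • w ≠ 0
    simpa using hw0
  have hσ'w0 : galFun N σ⁻¹ w ≠ 0 := by
    show arithmeticGalois (modularFunctionFieldFull N) σ⁻¹ • w ≠ 0
    simpa using hw0
  have hdvd : ∀ P : Place Qb F, (n : ℤ) ∣ P.ord g := by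
    intro P
    have h1 := mul_smul_divisor_apply_eq_ord (arithmeticGalois (modularFunctionFieldFull N) σ)
      (n : ℤ) hDw P
    have h2 := mul_smul_divisor_apply_eq_ord (arithmeticGalois (modularFunctionFieldFull N) σ⁻¹)
      (n : ℤ) hDw P
    have h3 : P.ord (frobDen N ℓ σ w) = P.ord (galFun N σ w) + (ℓ : ℤ) * P.ord (galFun N σ⁻¹ w) := by
      unfold frobDen
      rw [P.ord_mul hσw0 (pow_ne_zero _ hσ'w0), ← zpow_natCast, Place.ord_zpow]
    rw [hg, P.ord_mul hTw0 (inv_ne_zero hDw0), P.ord_inv, h3, ← hE P]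
    change (n : ℤ) ∣ _ - (P.ord (arithmeticGalois (modularFunctionFieldFull N) σ • w) +
      (ℓ : ℤ) * P.ord (arithmeticGalois (modularFunctionFieldFull N) σ⁻¹ • w))
    rw [← h1, ← h2]
    exact ⟨(E : Divisor Qb F) P -
      ((arithmeticGalois (modularFunctionFieldFull N) σ • (D : Divisor Qb F)) P +
        (ℓ : ℤ) * (arithmeticGalois (modularFunctionFieldFull N) σ⁻¹ • (D : Divisor Qb F)) P),
      by ring⟩
  obtain ⟨h, hh⟩ := hKL n ℓ hℓ hndvd A hA g hg0 hdvd hgmem hgres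
  have hh0 : h ≠ 0 := by
    rintro rfl
    rw [zero_pow hn] at hh
    exact hg0 hh.symm
  -- the constant factor
  obtain ⟨d, hd⟩ := heckeFun_algebraMap (N := N) ℓ c
  have hσc0 : σ c ≠ 0 := by simpa using hc0
  have hσ'c0 : σ⁻¹ c ≠ 0 := by
    intro h0
    apply hc0
    have := congrArg σ h0
    rwa [map_zero, AlgEquiv.aut_inv, AlgEquiv.apply_symm_apply] at this
  have hk0 : σ c * (σ⁻¹ c) ^ ℓ ≠ 0 := mul_ne_zero hσc0 (pow_ne_zero _ hσ'c0)
  obtain ⟨b, hb⟩ := IsAlgClosed.exists_pow_nat_eq (c ^ d / (σ c * (σ⁻¹ c) ^ ℓ))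
    (Nat.pos_of_ne_zero hn)
  have hb0 : b ≠ 0 := by
    rintro rfl
    rw [zero_pow hn] at hb
    exact (div_ne_zero (pow_ne_zero _ hc0) hk0) hb.symm
  have hbF : algebraMap Qb F b ≠ 0 := by simpa using hb0
  -- `Φ w = Φ c · Φ f`
  have hTw : heckeFun Qb N ℓ w = algebraMap Qb F (c ^ d) * heckeFun Qb N ℓ f := by
    rw [hw, map_mul, hd]
  have hDwf : frobDen N ℓ σ w = algebraMap Qb F (σ c * (σ⁻¹ c) ^ ℓ) * frobDen N ℓ σ f := by
    rw [hw, frobDen_mul, frobDen_algebraMap]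
  have hkF : algebraMap Qb F (σ c * (σ⁻¹ c) ^ ℓ) ≠ 0 := by simpa using hk0
  have hDf0 : frobDen N ℓ σ f ≠ 0 := frobDen_ne_zero ℓ σ hf
  have hcdF : algebraMap Qb F (c ^ d) ≠ 0 := by simpa using pow_ne_zero d hc0
  have hbpow : algebraMap Qb F b ^ n * algebraMap Qb F (σ c * (σ⁻¹ c) ^ ℓ) =
      algebraMap Qb F (c ^ d) := by
    rw [← map_pow, hb, ← map_mul, div_mul_cancel₀ _ hk0]
  refine ⟨algebraMap Qb F b * h⁻¹, ?_⟩
  show (algebraMap Qb F b * h⁻¹) ^ n * heckeFun Qb N ℓ f = frobDen N ℓ σ f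
  have e1 : h ^ n * frobDen N ℓ σ w = heckeFun Qb N ℓ w := by
    rw [hh, hg, mul_assoc, inv_mul_cancel₀ hDw0, mul_one]
  rw [hTw, hDwf] at e1
  have e2 : algebraMap Qb F (c ^ d) * (h ^ n * ((algebraMap Qb F b * h⁻¹) ^ n *
      heckeFun Qb N ℓ f)) = algebraMap Qb F (c ^ d) * (h ^ n * frobDen N ℓ σ f) := by
    rw [mul_pow, inv_pow]
    have hhn : h ^ n ≠ 0 := pow_ne_zero n hh0
    calc algebraMap Qb F (c ^ d) * (h ^ n * (algebraMap Qb F b ^ n * (h ^ n)⁻¹ *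
          heckeFun Qb N ℓ f))
        = algebraMap Qb F b ^ n * (algebraMap Qb F (c ^ d) * heckeFun Qb N ℓ f) := by
          field_simp
      _ = algebraMap Qb F b ^ n *
            (h ^ n * (algebraMap Qb F (σ c * (σ⁻¹ c) ^ ℓ) * frobDen N ℓ σ f)) := by rw [e1]
      _ = (algebraMap Qb F b ^ n * algebraMap Qb F (σ c * (σ⁻¹ c) ^ ℓ)) *
            (h ^ n * frobDen N ℓ σ f) := by ring
      _ = algebraMap Qb F (c ^ d) * (h ^ n * frobDen N ℓ σ f) := by rw [hbpow]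
  exact mul_left_cancel₀ (pow_ne_zero n hh0) (mul_left_cancel₀ hcdF e2)

/-- `KeyLemmaAt N` + `ValueGroupAt N` + Kronecker + Hecke inputs ⟹ `F3.TorsionFrobQuadratic N`. -/
theorem torsionFrobQuadratic_of_keyLemma (hKL : KeyLemmaAt N) (hVG : ValueGroupAt N)
    (hP : ∀ (ℓ : ℕ) [NeZero ℓ], ℓ.Prime → ¬ ℓ ∣ N → NormProductFormula N ℓ)
    (hin : ∀ ℓ : Nat.Primes,
      (haveI : NeZero (ℓ : ℕ) := ⟨ℓ.2.ne_zero⟩; HeckeInputsAlong Qb N ℓ)) :
    TorsionFrobQuadratic N :=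
  torsionFrobQuadratic_of_frobPow hin (frobPow_of_keyLemma hKL hVG hP hin)

end Assembly

end Fermat.Agent.GaussIntFP
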