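/-
Cluster B (helper30): `F3G.FrobPow N` and `F3.TorsionFrobQuadratic N` from the KEY LEMMA and the
Hecke inputs alone.  The value group statement (helper5, `valueGroupAt`) and the norm product
formula (helper20 `conjugateExpansions`, helper42 `normProductFormula_of_conjugateExpansions`) are
unconditional theorems.
-/
import Mathlib
import Fermat.Agent.Lib.GaussInt.FrobPowAsm
import Fermat.Agent.Lib.GaussInt.ValGroup
import Fermat.Agent.Lib.Kronecker.ConjExp
import Fermat.Agent.Lib.Kronecker.NormProd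

set_option autoImplicit false
set_option linter.style.haveILetI false

noncomputable section

namespace Fermat.Agent.GaussIntFP

open ModularCurve AlgebraicCurve Fermat.Agent.F3 Fermat.Agent.F3G
  Fermat.Agent.GaussInt Fermat.Agent.Kronecker

local notation "Qb" => AlgebraicClosure ℚ

variable {N : ℕ} [NeZero N]

/-- The norm product formula (PROD), unconditionally, for a prime `ℓ ∤ N`. -/
theorem normProductFormula (N : ℕ) [NeZero N] (ℓ : ℕ) [NeZero ℓ] (hℓ : ℓ.Prime) (hℓN : ¬ ℓ ∣ N) :
    NormProductFormula N ℓ :=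
  normProductFormula_of_conjugateExpansions N ℓ hℓ hℓN
    (conjugateExpansions N ℓ ((Nat.Prime.coprime_iff_not_dvd hℓ).mpr hℓN))

/-- The KEY LEMMA and the Hecke inputs give the function form of the Eichler--Shimura relation. -/
theorem frobPow_of_keyLemmaAt (hKL : KeyLemmaAt N)
    (hin : ∀ ℓ : Nat.Primes,
      (haveI : NeZero (ℓ : ℕ) := ⟨ℓ.2.ne_zero⟩; HeckeInputsAlong Qb N ℓ)) :
    FrobPow N :=
  frobPow_of_keyLemma hKL (valueGroupAt N) (fun ℓ _ hℓ hℓN => normProductFormula N ℓ hℓ hℓN) hin

/-- The KEY LEMMA and the Hecke inputs give the Eichler--Shimura relation on torsion. -/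
theorem torsionFrobQuadratic_of_keyLemmaAt (hKL : KeyLemmaAt N)
    (hin : ∀ ℓ : Nat.Primes,
      (haveI : NeZero (ℓ : ℕ) := ⟨ℓ.2.ne_zero⟩; HeckeInputsAlong Qb N ℓ)) :
    TorsionFrobQuadratic N :=
  torsionFrobQuadratic_of_frobPow hin (frobPow_of_keyLemmaAt hKL hin)

end Fermat.Agent.GaussIntFP
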