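/-
Cluster T / B (helper5): SIMULTANEOUS ORTHOGONAL BASES for two valuation rings.

`K ⊆ F` fields, `A` a valuation ring of `K`, `O₁ O₂` valuation rings of `F` containing `A`.
If each `O_j` has the LATTICE property relative to `A` (`OrthLattice`: every finite-dimensional
`K`-subspace of `F` has a `K`-basis in `O_j` which is orthonormal), then every finite-dimensional
`W` has a basis which is ORTHOGONAL for `O₁` and `O₂` simultaneously
(`exists_simul_orthogonal`).  This is the Smith normal form of two lattices over a valuation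
ring, by induction on `dim W`.

If moreover the value groups of `O₁`, `O₂` are the value group of `A` (`ScaleProp`), the basis
can be normalised to a basis in `O₁ ∩ O₂`, orthonormal for the maximum of the two norms
(`exists_max_orthonormal`).
-/
import Mathlib

set_option autoImplicit false

noncomputable section

namespace Fermat.Agent.GaussInt

variable {K F : Type*} [Field K] [Field F] [Algebra K F]

/-- The LATTICE property of a valuation ring `O` of `F` relative to the valuation ring `A` of
`K`: every finite-dimensional `K`-subspace has an orthonormal basis. -/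
def OrthLattice (A : ValuationSubring K) (O : ValuationSubring F) : Prop :=
  ∀ W : Submodule K F, FiniteDimensional K W →
    ∃ (n : ℕ) (w : Fin n → F), (∀ i, w i ∈ W) ∧ (∀ i, w i ∈ O) ∧ LinearIndependent K w ∧
      Submodule.span K (Set.range w) = W ∧
      ∀ c : Fin n → K, ∑ i, c i • w i ∈ O → ∀ i, c i ∈ A

/-- The value group of `O` is the value group of `A`: every `f ≠ 0` is a constant times a unit
of `O`. -/
def ScaleProp (O : ValuationSubring F) : Prop :=
  ∀ f : F, f ≠ 0 → ∃ c : K, c ≠ 0 ∧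
    f * (algebraMap K F c)⁻¹ ∈ O ∧ (f * (algebraMap K F c)⁻¹)⁻¹ ∈ O

/-- A family is orthogonal for `O`: a linear combination is integral only if all its terms
are. -/
def IsOrthFamily (O : ValuationSubring F) {n : ℕ} (u : Fin n → F) : Prop :=
  ∀ c : Fin n → K, ∑ i, c i • u i ∈ O → ∀ i, c i • u i ∈ O

theorem smul_mem_of_mem {A : ValuationSubring K} {O : ValuationSubring F}
    (hA : ∀ c : K, c ∈ A → algebraMap K F c ∈ O) {a : K} (ha : a ∈ A) {x : F} (hx : x ∈ O) :
    a • x ∈ O := by
  rw [Algebra.smul_def]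
  exact O.mul_mem _ _ (hA a ha) hx

theorem sum_smul_mem {A : ValuationSubring K} {O : ValuationSubring F}
    (hA : ∀ c : K, c ∈ A → algebraMap K F c ∈ O) {ι : Type*} (s : Finset ι) (a : ι → K)
    (x : ι → F) (ha : ∀ i ∈ s, a i ∈ A) (hx : ∀ i ∈ s, x i ∈ O) :
    ∑ i ∈ s, a i • x i ∈ O :=
  O.toSubring.sum_mem fun i hi => smul_mem_of_mem hA (ha i hi) (hx i hi)

/-- In a finite nonempty family of elements of `K` there is one of maximal absolute value. -/
theorem exists_max_entry (A : ValuationSubring K) {ι : Type*} (s : Finset ι) (hs : s.Nonempty)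
    (b : ι → K) :
    ∃ i₀ ∈ s, ∀ i ∈ s, b i₀ = 0 ∧ b i = 0 ∨ b i₀ ≠ 0 ∧ b i / b i₀ ∈ A := by
  obtain ⟨i₀, hi₀, hmax⟩ := Finset.exists_max_image s (fun i => A.valuation (b i)) hs
  refine ⟨i₀, hi₀, fun i hi => ?_⟩
  have h := hmax i hi
  by_cases h0 : b i₀ = 0
  · left
    refine ⟨h0, ?_⟩
    rw [h0, map_zero] at h
    exact (map_eq_zero _).mp (le_antisymm h zero_le)
  · right
    refine ⟨h0, ?_⟩
    rw [← ValuationSubring.valuation_le_one_iff, map_div₀]
    exact div_le_one_of_le₀ h zero_le


section Step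

variable {A : ValuationSubring K} {O₁ O₂ : ValuationSubring F}

/-- Coordinates of an integral element in an orthonormal basis are integral. -/
theorem repr_mem_of_orth {O : ValuationSubring F} {W : Submodule K F} {n : ℕ}
    (B : Module.Basis (Fin n) K W)
    (horth : ∀ c : Fin n → K, ∑ i, c i • ((B i : W) : F) ∈ O → ∀ i, c i ∈ A)
    (w : W) (hw : (w : F) ∈ O) (i : Fin n) : B.repr w i ∈ A := by
  apply horth (fun i => B.repr w i) _ i
  have h := congrArg (Subtype.val) (B.sum_repr w)
  simp only [Submodule.coe_sum, Submodule.coe_smul] at h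
  rw [h]
  exact hw

/-- The inductive step: splitting off a common orthogonal vector. -/
theorem exists_split (hA₁ : ∀ c : K, c ∈ A → algebraMap K F c ∈ O₁)
    (hA₂ : ∀ c : K, c ∈ A → algebraMap K F c ∈ O₂)
    (hL₁ : OrthLattice A O₁) (hL₂ : OrthLattice A O₂)
    (W : Submodule K F) [FiniteDimensional K W] (hW : W ≠ ⊥) :
    ∃ (e : F) (φ : W →ₗ[K] K), e ∈ W ∧ e ≠ 0 ∧
      (∀ he : e ∈ W, φ ⟨e, he⟩ = 1) ∧
      (∀ w : W, (w : F) ∈ O₁ → φ w • e ∈ O₁) ∧
      (∀ w : W, (w : F) ∈ O₂ → φ w • e ∈ O₂) := by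
  classical
  obtain ⟨n, e, heW, heO, heli, hespan, heorth⟩ := hL₁ W inferInstance
  obtain ⟨m, f, hfW, hfO, hfli, hfspan, hforth⟩ := hL₂ W inferInstance
  -- the two bases of `W`
  set e' : Fin n → W := fun i => ⟨e i, heW i⟩ with he'
  set f' : Fin m → W := fun i => ⟨f i, hfW i⟩ with hf'
  have he'li : LinearIndependent K e' := by
    apply LinearIndependent.of_comp W.subtype
    exact heli
  have hf'li : LinearIndependent K f' := by
    apply LinearIndependent.of_comp W.subtype
    exact hfli
  have he'span : ⊤ ≤ Submodule.span K (Set.range e') := by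
    intro w _
    have hw : (w : F) ∈ Submodule.span K (Set.range e) := by rw [hespan]; exact w.2
    have h2 : Submodule.span K (Set.range e) = (Submodule.span K (Set.range e')).map W.subtype := by
      rw [Submodule.map_span, ← Set.range_comp]
      rfl
    rw [h2] at hw
    obtain ⟨w', hw', hww'⟩ := hw
    have : w' = w := Subtype.ext hww'
    rw [← this]
    exact hw'
  have hf'span : ⊤ ≤ Submodule.span K (Set.range f') := by
    intro w _
    have hw : (w : F) ∈ Submodule.span K (Set.range f) := by rw [hfspan]; exact w.2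
    have h2 : Submodule.span K (Set.range f) = (Submodule.span K (Set.range f')).map W.subtype := by
      rw [Submodule.map_span, ← Set.range_comp]
      rfl
    rw [h2] at hw
    obtain ⟨w', hw', hww'⟩ := hw
    have : w' = w := Subtype.ext hww'
    rw [← this]
    exact hw'
  set Be : Module.Basis (Fin n) K W := Module.Basis.mk he'li he'span with hBe
  set Bf : Module.Basis (Fin m) K W := Module.Basis.mk hf'li hf'span with hBf
  have hBe_apply : ∀ i, ((Be i : W) : F) = e i := fun i => by
    rw [hBe, Module.Basis.mk_apply]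
  have hBf_apply : ∀ i, ((Bf i : W) : F) = f i := fun i => by
    rw [hBf, Module.Basis.mk_apply]
  have heorth' : ∀ c : Fin n → K, ∑ i, c i • ((Be i : W) : F) ∈ O₁ → ∀ i, c i ∈ A := by
    intro c hc
    apply heorth c
    simpa only [hBe_apply] using hc
  have hforth' : ∀ c : Fin m → K, ∑ i, c i • ((Bf i : W) : F) ∈ O₂ → ∀ i, c i ∈ A := by
    intro c hc
    apply hforth c
    simpa only [hBf_apply] using hc
  -- nonemptiness
  have hnpos : 0 < n := by
    by_contra h0
    have hn0 : n = 0 := by omega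
    subst hn0
    apply hW
    rw [← hespan]
    have : Set.range e = ∅ := Set.range_eq_empty e
    rw [this, Submodule.span_empty]
  have hmpos : 0 < m := by
    by_contra h0
    have hm0 : m = 0 := by omega
    subst hm0
    apply hW
    rw [← hfspan]
    have : Set.range f = ∅ := Set.range_eq_empty f
    rw [this, Submodule.span_empty]
  -- the matrix of `e` in terms of `f`, and an entry of maximal absolute value
  set b : Fin n × Fin m → K := fun p => Bf.repr (Be p.1) p.2 with hb
  have hne : (Finset.univ : Finset (Fin n × Fin m)).Nonempty :=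
    ⟨(⟨0, hnpos⟩, ⟨0, hmpos⟩), Finset.mem_univ _⟩
  obtain ⟨⟨i₀, j₀⟩, -, hmax⟩ := exists_max_entry A Finset.univ hne b
  have hb0 : b (i₀, j₀) ≠ 0 := by
    intro h0
    have hall : ∀ p, b p = 0 := fun p => by
      rcases hmax p (Finset.mem_univ _) with h | h
      · exact h.2
      · exact absurd h0 h.1
    have : Be ⟨0, hnpos⟩ = 0 := by
      apply Bf.repr.injective
      ext j
      rw [map_zero, Finsupp.zero_apply]
      exact hall (⟨0, hnpos⟩, j)
    exact Be.ne_zero _ this
  have hratio : ∀ p, b p / b (i₀, j₀) ∈ A := fun p => by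
    rcases hmax p (Finset.mem_univ _) with h | h
    · exact absurd h.1 hb0
    · exact h.2
  set β : K := b (i₀, j₀) with hβ
  -- the functional and the vector
  refine ⟨e i₀, β⁻¹ • Bf.coord j₀, heW i₀, ?_, ?_, ?_, ?_⟩
  · exact fun h => heli.ne_zero i₀ h
  · intro he
    have : (⟨e i₀, he⟩ : W) = Be i₀ := Subtype.ext (hBe_apply i₀).symm
    rw [this, LinearMap.smul_apply, Module.Basis.coord_apply, smul_eq_mul]
    exact inv_mul_cancel₀ hb0
  · -- orthogonality for `O₁`
    intro w hw
    have hc : ∀ i, Be.repr w i ∈ A := repr_mem_of_orth Be heorth' w hw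
    have h1 : (β⁻¹ • Bf.coord j₀) w = ∑ i, Be.repr w i * (b (i, j₀) / β) := by
      rw [LinearMap.smul_apply, smul_eq_mul]
      conv_lhs => rw [← Be.sum_repr w]
      rw [map_sum, Finset.mul_sum]
      refine Finset.sum_congr rfl fun i _ => ?_
      rw [map_smul, smul_eq_mul, Module.Basis.coord_apply]
      rw [hb]
      field_simp
    have h2 : (β⁻¹ • Bf.coord j₀) w ∈ A := by
      rw [h1]
      exact A.toSubring.sum_mem fun i _ => A.mul_mem _ _ (hc i) (hratio (i, j₀))
    exact smul_mem_of_mem hA₁ h2 (heO i₀)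
  · -- orthogonality for `O₂`
    intro w hw
    have hc : Bf.repr w j₀ ∈ A := repr_mem_of_orth Bf hforth' w hw j₀
    have h1 : β⁻¹ • e i₀ = ∑ j, (b (i₀, j) / β) • f j := by
      have h3 : e i₀ = ∑ j, b (i₀, j) • f j := by
        have h4 := congrArg (Subtype.val) (Bf.sum_repr (Be i₀))
        rw [hBe_apply] at h4
        rw [← h4]
        simp only [Submodule.coe_sum, Submodule.coe_smul, hBf_apply]
        rfl
      conv_lhs => rw [h3]
      rw [Finset.smul_sum]
      refine Finset.sum_congr rfl fun j _ => ?_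
      rw [smul_smul, div_eq_inv_mul]
    have h2 : β⁻¹ • e i₀ ∈ O₂ := by
      rw [h1]
      exact sum_smul_mem hA₂ _ _ _ (fun j _ => hratio (i₀, j)) (fun j _ => hfO j)
    have h5 : (β⁻¹ • Bf.coord j₀) w • e i₀ = Bf.repr w j₀ • (β⁻¹ • e i₀) := by
      rw [LinearMap.smul_apply, Module.Basis.coord_apply, smul_eq_mul, smul_smul, mul_comm]
    rw [h5]
    exact smul_mem_of_mem hA₂ hc h2

/-- **Simultaneous orthogonal basis**, by induction on the dimension. -/
theorem exists_simul_orthogonal_aux (hA₁ : ∀ c : K, c ∈ A → algebraMap K F c ∈ O₁)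
    (hA₂ : ∀ c : K, c ∈ A → algebraMap K F c ∈ O₂)
    (hL₁ : OrthLattice A O₁) (hL₂ : OrthLattice A O₂) :
    ∀ (d : ℕ) (W : Submodule K F), FiniteDimensional K W → Module.finrank K W = d →
      ∃ (n : ℕ) (u : Fin n → F), (∀ i, u i ∈ W) ∧ LinearIndependent K u ∧
        Submodule.span K (Set.range u) = W ∧
        IsOrthFamily (K := K) O₁ u ∧ IsOrthFamily (K := K) O₂ u := by
  classical
  intro d
  induction d with
  | zero =>
    intro W hfd hW
    have hbot : W = ⊥ := Submodule.finrank_eq_zero.mp hW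
    refine ⟨0, Fin.elim0, fun i => i.elim0, linearIndependent_empty_type, ?_,
      fun _ _ i => i.elim0, fun _ _ i => i.elim0⟩
    rw [hbot]
    have : Set.range (Fin.elim0 : Fin 0 → F) = ∅ := Set.range_eq_empty _
    rw [this, Submodule.span_empty]
  | succ d ih =>
    intro W hfd hW
    have hne : W ≠ ⊥ := by
      intro h0
      rw [h0, finrank_bot] at hW
      omega
    obtain ⟨e, φ, heW, he0, hφe, hs₁, hs₂⟩ := exists_split hA₁ hA₂ hL₁ hL₂ W hne
    have hφe' : φ ⟨e, heW⟩ = 1 := hφe heW
    set W' : Submodule K F := (LinearMap.ker φ).map W.subtype with hW'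
    have hW'le : W' ≤ W := by
      rintro _ ⟨x, -, rfl⟩
      exact x.2
    have hmemW' : ∀ x : F, x ∈ W' ↔ ∃ hx : x ∈ W, φ ⟨x, hx⟩ = 0 := by
      intro x
      constructor
      · rintro ⟨y, hy, rfl⟩
        exact ⟨y.2, hy⟩
      · rintro ⟨hx, h0⟩
        exact ⟨⟨x, hx⟩, h0, rfl⟩
    have hfdW' : FiniteDimensional K W' := Submodule.finiteDimensional_of_le hW'le
    have hsurj : Function.Surjective φ := by
      intro c
      refine ⟨c • ⟨e, heW⟩, ?_⟩
      rw [map_smul, hφe', smul_eq_mul, mul_one]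
    have hfr : Module.finrank K W' = d := by
      have h1 : Module.finrank K W' = Module.finrank K (LinearMap.ker φ) :=
        (LinearEquiv.finrank_eq
          (Submodule.equivMapOfInjective W.subtype W.injective_subtype (LinearMap.ker φ))).symm
      have h2 := LinearMap.finrank_range_add_finrank_ker φ
      rw [LinearMap.range_eq_top.mpr hsurj, finrank_top, Module.finrank_self, hW] at h2
      omega
    obtain ⟨m, u', hu'W, hu'li, hu'span, hu'o₁, hu'o₂⟩ := ih W' hfdW' hfr
    have hφu' : ∀ i, ∀ h : u' i ∈ W, φ ⟨u' i, h⟩ = 0 := fun i h => by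
      obtain ⟨hx, h0⟩ := (hmemW' (u' i)).mp (hu'W i)
      exact h0
    -- the decomposition of a linear combination
    have hsum : ∀ c : Fin (m + 1) → K,
        ∑ i, c i • (Fin.cons e u' : Fin (m + 1) → F) i =
          c 0 • e + ∑ i : Fin m, c i.succ • u' i := by
      intro c
      rw [Fin.sum_univ_succ]
      simp only [Fin.cons_zero, Fin.cons_succ]
    have hrestW : ∀ c : Fin m → K, ∑ i, c i • u' i ∈ W' := fun c =>
      W'.sum_mem fun i _ => W'.smul_mem _ (hu'W i)
    have hφsum : ∀ c : Fin (m + 1) → K,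
        ∀ h : c 0 • e + ∑ i : Fin m, c i.succ • u' i ∈ W,
          φ ⟨c 0 • e + ∑ i : Fin m, c i.succ • u' i, h⟩ = c 0 := by
      intro c h
      obtain ⟨hx, h0⟩ := (hmemW' _).mp (hrestW fun i => c i.succ)
      have : (⟨c 0 • e + ∑ i : Fin m, c i.succ • u' i, h⟩ : W) =
          c 0 • ⟨e, heW⟩ + ⟨∑ i : Fin m, c i.succ • u' i, hx⟩ := rfl
      rw [this, map_add, map_smul, hφe', h0, add_zero, smul_eq_mul, mul_one]
    have horth : ∀ (O : ValuationSubring F), (∀ w : W, (w : F) ∈ O → φ w • e ∈ O) →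
        IsOrthFamily (K := K) O u' → IsOrthFamily (K := K) O (Fin.cons e u' : Fin (m + 1) → F) := by
      intro O hs hu'o c hc
      rw [hsum] at hc
      have hmemW : c 0 • e + ∑ i : Fin m, c i.succ • u' i ∈ W :=
        W.add_mem (W.smul_mem _ heW) (hW'le (hrestW _))
      have h0 : c 0 • e ∈ O := by
        have := hs ⟨_, hmemW⟩ hc
        rwa [hφsum c hmemW] at this
      have hrest : ∑ i : Fin m, c i.succ • u' i ∈ O := by
        have := O.toSubring.sub_mem hc h0
        rwa [add_sub_cancel_left] at this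
      have hall := hu'o (fun i => c i.succ) hrest
      intro i
      refine Fin.cases ?_ (fun j => ?_) i
      · simpa only [Fin.cons_zero] using h0
      · simpa only [Fin.cons_succ] using hall j
    refine ⟨m + 1, Fin.cons e u', ?_, ?_, ?_, horth O₁ hs₁ hu'o₁, horth O₂ hs₂ hu'o₂⟩
    · intro i
      refine Fin.cases ?_ (fun j => ?_) i
      · simpa only [Fin.cons_zero] using heW
      · simpa only [Fin.cons_succ] using hW'le (hu'W j)
    · rw [linearIndependent_finCons]
      refine ⟨hu'li, ?_⟩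
      rw [hu'span, hmemW']
      rintro ⟨hx, h0⟩
      rw [hφe hx] at h0
      exact one_ne_zero h0
    · rw [Fin.range_cons, Submodule.span_insert, hu'span]
      apply le_antisymm
      · apply sup_le
        · rw [Submodule.span_le]
          rintro _ rfl
          exact heW
        · exact hW'le
      · intro w hw
        have h1 : w = φ ⟨w, hw⟩ • e + (w - φ ⟨w, hw⟩ • e) := by ring
        rw [h1]
        apply Submodule.add_mem
        · exact Submodule.mem_sup_left (Submodule.smul_mem _ _ (Submodule.mem_span_singleton_self e))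
        · apply Submodule.mem_sup_right
          rw [hmemW']
          have hmem : w - φ ⟨w, hw⟩ • e ∈ W := W.sub_mem hw (W.smul_mem _ heW)
          refine ⟨hmem, ?_⟩
          have : (⟨w - φ ⟨w, hw⟩ • e, hmem⟩ : W) = ⟨w, hw⟩ - φ ⟨w, hw⟩ • ⟨e, heW⟩ := rfl
          rw [this, map_sub, map_smul, hφe', smul_eq_mul, mul_one, sub_self]

/-- **SIMULTANEOUS ORTHOGONAL BASIS.**  If two valuation rings `O₁`, `O₂` of `F` over the
valuation ring `A` of `K` both have the lattice property, every finite-dimensional `K`-subspace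
of `F` has a basis which is orthogonal for both. -/
theorem exists_simul_orthogonal (hA₁ : ∀ c : K, c ∈ A → algebraMap K F c ∈ O₁)
    (hA₂ : ∀ c : K, c ∈ A → algebraMap K F c ∈ O₂)
    (hL₁ : OrthLattice A O₁) (hL₂ : OrthLattice A O₂)
    (W : Submodule K F) [hfd : FiniteDimensional K W] :
    ∃ (n : ℕ) (u : Fin n → F), (∀ i, u i ∈ W) ∧ LinearIndependent K u ∧
      Submodule.span K (Set.range u) = W ∧
      IsOrthFamily (K := K) O₁ u ∧ IsOrthFamily (K := K) O₂ u :=
  exists_simul_orthogonal_aux hA₁ hA₂ hL₁ hL₂ _ W hfd rfl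

/-- Scaling an orthogonal family keeps it orthogonal. -/
theorem IsOrthFamily.smul {O : ValuationSubring F} {n : ℕ} {u : Fin n → F}
    (hu : IsOrthFamily (K := K) O u) (t : Fin n → K) :
    IsOrthFamily (K := K) O (fun i => t i • u i) := by
  intro c hc i
  have h1 : ∑ i, c i • (fun i => t i • u i) i = ∑ i, (c i * t i) • u i :=
    Finset.sum_congr rfl fun i _ => smul_smul _ _ _
  rw [h1] at hc
  have := hu (fun i => c i * t i) hc i
  simpa only [smul_smul] using this

/-- **MAX-NORM ORTHONORMAL BASIS.**  If moreover the value groups of `O₁` and `O₂` are the value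
group of `A`, every finite-dimensional `W` has a basis in `O₁ ∩ O₂`, each member of which is a
unit of `O₁` or of `O₂`, such that a linear combination is in `O₁ ∩ O₂` only if its coefficients
are in `A`. -/
theorem exists_max_orthonormal (hA₁ : ∀ c : K, algebraMap K F c ∈ O₁ ↔ c ∈ A)
    (hA₂ : ∀ c : K, algebraMap K F c ∈ O₂ ↔ c ∈ A)
    (hL₁ : OrthLattice A O₁) (hL₂ : OrthLattice A O₂)
    (hs₁ : ScaleProp (K := K) O₁) (hs₂ : ScaleProp (K := K) O₂)
    (W : Submodule K F) [FiniteDimensional K W] :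
    ∃ (n : ℕ) (u : Fin n → F), (∀ i, u i ∈ W) ∧ (∀ i, u i ∈ O₁) ∧ (∀ i, u i ∈ O₂) ∧
      LinearIndependent K u ∧ Submodule.span K (Set.range u) = W ∧
      (∀ i, (u i)⁻¹ ∈ O₁ ∨ (u i)⁻¹ ∈ O₂) ∧
      IsOrthFamily (K := K) O₁ u ∧ IsOrthFamily (K := K) O₂ u ∧
      ∀ c : Fin n → K, ∑ i, c i • u i ∈ O₁ → ∑ i, c i • u i ∈ O₂ → ∀ i, c i ∈ A := by
  classical
  obtain ⟨n, u, huW, huli, huspan, huo₁, huo₂⟩ :=
    exists_simul_orthogonal (fun c hc => (hA₁ c).mpr hc) (fun c hc => (hA₂ c).mpr hc) hL₁ hL₂ W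
  -- the normalising constants
  have hex : ∀ i, ∃ t : K, t ≠ 0 ∧ t • u i ∈ O₁ ∧ t • u i ∈ O₂ ∧
      ((t • u i)⁻¹ ∈ O₁ ∨ (t • u i)⁻¹ ∈ O₂) := by
    intro i
    have hui : u i ≠ 0 := huli.ne_zero i
    obtain ⟨c₁, hc₁, h₁, h₁'⟩ := hs₁ (u i) hui
    obtain ⟨c₂, hc₂, h₂, h₂'⟩ := hs₂ (u i) hui
    have key : ∀ t : K, t⁻¹ • u i = u i * (algebraMap K F t)⁻¹ := fun t => by
      rw [Algebra.smul_def, map_inv₀, mul_comm]
    rcases A.mem_or_inv_mem (c₁ / c₂) with h | h
    · -- `|c₁| ≤ |c₂|`: normalise by `c₂`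
      refine ⟨c₂⁻¹, inv_ne_zero hc₂, ?_, ?_, Or.inr ?_⟩
      · have : c₂⁻¹ • u i = algebraMap K F (c₁ / c₂) * (u i * (algebraMap K F c₁)⁻¹) := by
          rw [key, map_div₀]
          have hc₁' : algebraMap K F c₁ ≠ 0 := by simpa using hc₁
          have hc₂' : algebraMap K F c₂ ≠ 0 := by simpa using hc₂
          field_simp
        rw [this]
        exact O₁.mul_mem _ _ ((hA₁ _).mpr h) h₁
      · rw [key]
        exact h₂
      · rw [key]
        exact h₂'
    · -- `|c₂| ≤ |c₁|`: normalise by `c₁`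
      have h' : c₂ / c₁ ∈ A := by
        rwa [inv_div] at h
      refine ⟨c₁⁻¹, inv_ne_zero hc₁, ?_, ?_, Or.inl ?_⟩
      · rw [key]
        exact h₁
      · have : c₁⁻¹ • u i = algebraMap K F (c₂ / c₁) * (u i * (algebraMap K F c₂)⁻¹) := by
          rw [key, map_div₀]
          have hc₁' : algebraMap K F c₁ ≠ 0 := by simpa using hc₁
          have hc₂' : algebraMap K F c₂ ≠ 0 := by simpa using hc₂
          field_simp
        rw [this]
        exact O₂.mul_mem _ _ ((hA₂ _).mpr h') h₂
      · rw [key]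
        exact h₁'
  choose t ht0 ht₁ ht₂ htu using hex
  have ho₁ : IsOrthFamily (K := K) O₁ (fun i => t i • u i) := huo₁.smul t
  have ho₂ : IsOrthFamily (K := K) O₂ (fun i => t i • u i) := huo₂.smul t
  refine ⟨n, fun i => t i • u i, fun i => W.smul_mem _ (huW i), ht₁, ht₂, ?_, ?_, htu,
    ho₁, ho₂, ?_⟩
  · exact huli.units_smul (fun i => Units.mk0 (t i) (ht0 i))
  · rw [← huspan]
    apply le_antisymm
    · rw [Submodule.span_le]
      rintro _ ⟨i, rfl⟩
      exact Submodule.smul_mem _ _ (Submodule.subset_span ⟨i, rfl⟩)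
    · rw [Submodule.span_le]
      rintro _ ⟨i, rfl⟩
      have : u i = (t i)⁻¹ • (t i • u i) := by
        rw [smul_smul, inv_mul_cancel₀ (ht0 i), one_smul]
      rw [this]
      exact Submodule.smul_mem _ _ (Submodule.subset_span ⟨i, rfl⟩)
  · intro c hc₁ hc₂ i
    have hi₁ := ho₁ c hc₁ i
    have hi₂ := ho₂ c hc₂ i
    have hne : t i • u i ≠ 0 := smul_ne_zero (ht0 i) (huli.ne_zero i)
    have hkey : algebraMap K F (c i) = (c i • (t i • u i)) * (t i • u i)⁻¹ := by
      rw [Algebra.smul_def, mul_assoc, mul_inv_cancel₀ hne, mul_one]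
    rcases htu i with h | h
    · rw [← hA₁, hkey]
      exact O₁.mul_mem _ _ hi₁ h
    · rw [← hA₂, hkey]
      exact O₂.mul_mem _ _ hi₂ h

end Step

end Fermat.Agent.GaussInt
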