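/-
Cluster T / B (helper5): the two-valuation LATTICE property for `Deuring.ValSetup`s.

* `orthLattice_of_hasLattice` : `Deuring.HasLattice S → OrthLattice S.A S.Ov`
* `scaleProp_of_valSetup`     : `ScaleProp S.Ov`
* `exists_orthonormal_pair`   : for two constant reductions `S₁`, `S₂` of the same function field
  `F / K` over the same valuation ring `A` of `K` (with the same residue map), both with the
  lattice property, every finite-dimensional `K`-subspace `W` of `F` has a `K`-basis `u` in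
  `O₁ ∩ O₂` such that
    - `∑ cᵢ uᵢ ∈ O₁ ∩ O₂ ⟹ cᵢ ∈ A` (so `W ∩ O₁ ∩ O₂ = ⊕ A uᵢ`),
    - the pairs `(red₁ uᵢ, red₂ uᵢ) ∈ Fk₁ × Fk₂` are linearly independent over `k`.
-/
import Mathlib
import Fermat.Agent.Lib.GaussInt.TwoVal
import Fermat.Agent.Lib.Deuring.Basic

set_option autoImplicit false

noncomputable section

namespace Fermat.Agent.GaussInt

open Fermat.Agent.Deuring

variable {K F k Fk : Type*} [Field K] [Field F] [Algebra K F] [Field k] [Field Fk] [Algebra k Fk]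

theorem sum_smul_mem_Ov (S : ValSetup K F k Fk) {ι : Type*} (s : Finset ι) (c : ι → K)
    (w : ι → F) (hc : ∀ i, c i ∈ S.A) (hw : ∀ i, w i ∈ S.Ov) : ∑ i ∈ s, c i • w i ∈ S.Ov :=
  S.Ov.toSubring.sum_mem fun i _ => S.smul_mem (hc i) (hw i)

theorem red_sum_smul (S : ValSetup K F k Fk) {ι : Type*} (s : Finset ι) (c : ι → K)
    (w : ι → F) (hc : ∀ i, c i ∈ S.A) (hw : ∀ i, w i ∈ S.Ov) :
    S.red (∑ i ∈ s, c i • w i) = ∑ i ∈ s, S.res ⟨c i, hc i⟩ • S.red (w i) := by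
  classical
  induction s using Finset.induction_on with
  | empty => simp
  | insert a s ha ih =>
    rw [Finset.sum_insert ha, Finset.sum_insert ha,
      S.red_add (S.smul_mem (hc a) (hw a)) (sum_smul_mem_Ov S s c w hc hw), ih,
      S.red_smul (hc a) (hw a)]

/-- a normalised combination of a family with independent reductions has nonzero reduction. -/
theorem red_normalised_ne_zero (S : ValSetup K F k Fk) {n : ℕ} (w : Fin n → F)
    (hw : ∀ i, w i ∈ S.Ov) (hli : LinearIndependent k fun i => S.red (w i))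
    (c : Fin n → K) (i₀ : Fin n) (hc₀ : c i₀ ≠ 0) (hmax : ∀ i, c i / c i₀ ∈ S.A) :
    S.red (∑ i, (c i / c i₀) • w i) ≠ 0 := by
  intro h0
  rw [red_sum_smul S _ _ w hmax hw] at h0
  have h1 := Fintype.linearIndependent_iff.mp hli (fun i => S.res ⟨c i / c i₀, hmax i⟩) h0 i₀
  have h2 : (⟨c i₀ / c i₀, hmax i₀⟩ : S.A) = 1 := Subtype.ext (div_self hc₀)
  rw [h2, map_one] at h1
  exact one_ne_zero h1

/-- `Deuring.HasLattice` gives the lattice property in the orthonormal form. -/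
theorem orthLattice_of_hasLattice (S : ValSetup K F k Fk) (hL : HasLattice S) :
    OrthLattice S.A S.Ov := by
  classical
  intro W hW
  obtain ⟨n, w, hwW, hwO, hspan, hli⟩ := hL W hW
  have hmaxex : ∀ c : Fin n → K, (∃ i, c i ≠ 0) →
      ∃ i₀, c i₀ ≠ 0 ∧ ∀ i, c i / c i₀ ∈ S.A := by
    rintro c ⟨i₁, hi₁⟩
    obtain ⟨i₀, -, hmax⟩ := exists_max_entry S.A Finset.univ ⟨i₁, Finset.mem_univ _⟩ c
    have h0 : c i₀ ≠ 0 := by
      rcases hmax i₁ (Finset.mem_univ _) with h | h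
      · exact absurd h.2 hi₁
      · exact h.1
    refine ⟨i₀, h0, fun i => ?_⟩
    rcases hmax i (Finset.mem_univ _) with h | h
    · exact absurd h.1 h0
    · exact h.2
  have hnorm : ∀ (c : Fin n → K) (i₀ : Fin n), c i₀ ≠ 0 →
      ∑ i, (c i / c i₀) • w i = (c i₀)⁻¹ • ∑ i, c i • w i := by
    intro c i₀ _
    rw [Finset.smul_sum]
    refine Finset.sum_congr rfl fun i _ => ?_
    rw [smul_smul, div_eq_inv_mul]
  refine ⟨n, w, hwW, hwO, ?_, hspan, ?_⟩
  · rw [Fintype.linearIndependent_iff]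
    intro c hc
    by_contra hne
    rw [not_forall] at hne
    obtain ⟨i₀, h0, hmax⟩ := hmaxex c hne
    apply red_normalised_ne_zero S w hwO hli c i₀ h0 hmax
    rw [hnorm c i₀ h0, hc, smul_zero, S.red_zero]
  · intro c hc
    by_contra hne
    rw [not_forall] at hne
    obtain ⟨i₁, hi₁⟩ := hne
    have hi₁0 : c i₁ ≠ 0 := by
      rintro h
      rw [h] at hi₁
      exact hi₁ (zero_mem _)
    obtain ⟨i₀, h0, hmax⟩ := hmaxex c ⟨i₁, hi₁0⟩
    have hnot : c i₀ ∉ S.A := by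
      intro hin
      apply hi₁
      have : c i₁ = c i₁ / c i₀ * c i₀ := by
        field_simp
      rw [this]
      exact S.A.mul_mem _ _ (hmax i₁) hin
    obtain ⟨hinv, hres⟩ := S.res_inv_eq_zero hnot
    apply red_normalised_ne_zero S w hwO hli c i₀ h0 hmax
    rw [hnorm c i₀ h0, S.red_smul hinv hc, hres, zero_smul]

theorem scaleProp_of_valSetup (S : ValSetup K F k Fk) : ScaleProp (K := K) S.Ov :=
  S.scale

/-- **TWO-VALUATION LATTICE PROPERTY.** -/
theorem exists_orthonormal_pair {Fk' : Type*} [Field Fk'] [Algebra k Fk']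
    (S₁ : ValSetup K F k Fk) (S₂ : ValSetup K F k Fk')
    (hA : S₁.A = S₂.A)
    (hres : ∀ (c : K) (h₁ : c ∈ S₁.A) (h₂ : c ∈ S₂.A), S₁.res ⟨c, h₁⟩ = S₂.res ⟨c, h₂⟩)
    (hL₁ : HasLattice S₁) (hL₂ : HasLattice S₂)
    (W : Submodule K F) [FiniteDimensional K W] :
    ∃ (n : ℕ) (u : Fin n → F), (∀ i, u i ∈ W) ∧ (∀ i, u i ∈ S₁.Ov) ∧ (∀ i, u i ∈ S₂.Ov) ∧
      LinearIndependent K u ∧ Submodule.span K (Set.range u) = W ∧
      (∀ i, (u i)⁻¹ ∈ S₁.Ov ∨ (u i)⁻¹ ∈ S₂.Ov) ∧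
      IsOrthFamily (K := K) S₁.Ov u ∧ IsOrthFamily (K := K) S₂.Ov u ∧
      (∀ c : Fin n → K, ∑ i, c i • u i ∈ S₁.Ov → ∑ i, c i • u i ∈ S₂.Ov → ∀ i, c i ∈ S₁.A) ∧
      LinearIndependent k (fun i => ((S₁.red (u i), S₂.red (u i)) : Fk × Fk')) := by
  classical
  have hL₂' : OrthLattice S₁.A S₂.Ov := by
    rw [hA]
    exact orthLattice_of_hasLattice S₂ hL₂
  have hA₂ : ∀ c : K, algebraMap K F c ∈ S₂.Ov ↔ c ∈ S₁.A := by
    intro c
    rw [hA]
    exact S₂.mem_Ov_iff c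
  obtain ⟨n, u, huW, hu₁, hu₂, huli, huspan, huunit, ho₁, ho₂, horth⟩ :=
    exists_max_orthonormal S₁.mem_Ov_iff hA₂ (orthLattice_of_hasLattice S₁ hL₁) hL₂'
      S₁.scale S₂.scale W
  refine ⟨n, u, huW, hu₁, hu₂, huli, huspan, huunit, ho₁, ho₂, horth, ?_⟩
  rw [Fintype.linearIndependent_iff]
  intro g hg
  -- lift the coefficients
  choose c hc using fun i => S₁.res_surj (g i)
  have hcA₂ : ∀ i, ((c i : S₁.A) : K) ∈ S₂.A := fun i => hA ▸ (c i).2
  set x : F := ∑ i, ((c i : S₁.A) : K) • u i with hx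
  have hx₁ : x ∈ S₁.Ov := sum_smul_mem_Ov S₁ _ _ u (fun i => (c i).2) hu₁
  have hx₂ : x ∈ S₂.Ov := sum_smul_mem_Ov S₂ _ _ u hcA₂ hu₂
  have hg₁ : ∑ i, g i • S₁.red (u i) = 0 := by
    have := congrArg Prod.fst hg
    simpa only [Prod.fst_sum, Prod.smul_fst, Prod.fst_zero] using this
  have hg₂ : ∑ i, g i • S₂.red (u i) = 0 := by
    have := congrArg Prod.snd hg
    simpa only [Prod.snd_sum, Prod.smul_snd, Prod.snd_zero] using this
  have hr₁ : S₁.red x = 0 := by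
    rw [hx, red_sum_smul S₁ _ _ u (fun i => (c i).2) hu₁, ← hg₁]
    refine Finset.sum_congr rfl fun i _ => ?_
    rw [← hc i]
  have hr₂ : S₂.red x = 0 := by
    rw [hx, red_sum_smul S₂ _ _ u hcA₂ hu₂, ← hg₂]
    refine Finset.sum_congr rfl fun i _ => ?_
    rw [← hc i, hres _ (c i).2 (hcA₂ i)]
  -- `x = 0` or `x` is a constant of absolute value `< 1` times an element of `O₁ ∩ O₂`
  have hzero : ∀ (a : K) (ha : a ∈ S₁.A), a⁻¹ ∉ S₁.A → S₁.res ⟨a, ha⟩ = 0 := by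
    intro a ha hinv
    by_cases ha0 : a = 0
    · subst ha0
      exact map_zero S₁.res
    · obtain ⟨h', hres'⟩ := S₁.res_inv_eq_zero hinv
      have : (⟨a, ha⟩ : S₁.A) = ⟨a⁻¹⁻¹, h'⟩ := Subtype.ext (inv_inv a).symm
      rw [this]
      exact hres'
  intro i
  rw [← hc i]
  by_cases hx0 : x = 0
  · have h := Fintype.linearIndependent_iff.mp huli (fun i => ((c i : S₁.A) : K)) (hx ▸ hx0) i
    have : c i = 0 := Subtype.ext h
    rw [this, map_zero]
  · -- the absolute values of `x`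
    obtain ⟨d₁, hd₁, h₁, h₁'⟩ := S₁.scale x hx0
    obtain ⟨d₂, hd₂, h₂, h₂'⟩ := S₂.scale x hx0
    have key : ∀ t : K, t⁻¹ • x = x * (algebraMap K F t)⁻¹ := fun t => by
      rw [Algebra.smul_def, map_inv₀, mul_comm]
    -- `d₁`, `d₂` are nonunits of `A` with nonintegral inverse
    have hd₁A : d₁ ∈ S₁.A ∧ d₁⁻¹ ∉ S₁.A := by
      have hmem : algebraMap K F d₁ ∈ S₁.Ov := by
        have : algebraMap K F d₁ = x * (x * (algebraMap K F d₁)⁻¹)⁻¹ := by
          have hd : algebraMap K F d₁ ≠ 0 := by simpa using hd₁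
          field_simp
        rw [this]
        exact S₁.Ov.mul_mem _ _ hx₁ h₁'
      refine ⟨(S₁.mem_Ov_iff _).mp hmem, fun hinv => ?_⟩
      have h3 : S₁.red (x * (algebraMap K F d₁)⁻¹) = 0 := by
        rw [← key, S₁.red_smul hinv hx₁, hr₁, smul_zero]
      have hne : x * (algebraMap K F d₁)⁻¹ ≠ 0 :=
        mul_ne_zero hx0 (inv_ne_zero (by simpa using hd₁))
      exact (S₁.red_eq_zero_iff h₁ hne).mp h3 h₁'
    have hd₂A : d₂ ∈ S₁.A ∧ d₂⁻¹ ∉ S₁.A := by
      have hmem : algebraMap K F d₂ ∈ S₂.Ov := by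
        have : algebraMap K F d₂ = x * (x * (algebraMap K F d₂)⁻¹)⁻¹ := by
          have hd : algebraMap K F d₂ ≠ 0 := by simpa using hd₂
          field_simp
        rw [this]
        exact S₂.Ov.mul_mem _ _ hx₂ h₂'
      refine ⟨(hA₂ _).mp hmem, fun hinv => ?_⟩
      have hinv' : d₂⁻¹ ∈ S₂.A := hA ▸ hinv
      have h3 : S₂.red (x * (algebraMap K F d₂)⁻¹) = 0 := by
        rw [← key, S₂.red_smul hinv' hx₂, hr₂, smul_zero]
      have hne : x * (algebraMap K F d₂)⁻¹ ≠ 0 :=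
        mul_ne_zero hx0 (inv_ne_zero (by simpa using hd₂))
      exact (S₂.red_eq_zero_iff h₂ hne).mp h3 h₂'
    -- the larger of the two
    have hexd : ∃ d : K, d ≠ 0 ∧ d ∈ S₁.A ∧ d⁻¹ ∉ S₁.A ∧ d⁻¹ • x ∈ S₁.Ov ∧ d⁻¹ • x ∈ S₂.Ov := by
      have hd₁' : algebraMap K F d₁ ≠ 0 := by simpa using hd₁
      have hd₂' : algebraMap K F d₂ ≠ 0 := by simpa using hd₂
      rcases S₁.A.mem_or_inv_mem (d₁ / d₂) with h | h
      · refine ⟨d₂, hd₂, hd₂A.1, hd₂A.2, ?_, ?_⟩
        · have : d₂⁻¹ • x = algebraMap K F (d₁ / d₂) * (x * (algebraMap K F d₁)⁻¹) := by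
            rw [key, map_div₀]
            field_simp
          rw [this]
          exact S₁.Ov.mul_mem _ _ ((S₁.mem_Ov_iff _).mpr h) h₁
        · rw [key]
          exact h₂
      · have h' : d₂ / d₁ ∈ S₁.A := by rwa [inv_div] at h
        refine ⟨d₁, hd₁, hd₁A.1, hd₁A.2, ?_, ?_⟩
        · rw [key]
          exact h₁
        · have : d₁⁻¹ • x = algebraMap K F (d₂ / d₁) * (x * (algebraMap K F d₂)⁻¹) := by
            rw [key, map_div₀]
            field_simp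
          rw [this]
          exact S₂.Ov.mul_mem _ _ ((hA₂ _).mpr h') h₂
    obtain ⟨d, hd0, hdA, hdinv, hdx₁, hdx₂⟩ := hexd
    have hsum : d⁻¹ • x = ∑ i, (d⁻¹ * ((c i : S₁.A) : K)) • u i := by
      rw [hx, Finset.smul_sum]
      exact Finset.sum_congr rfl fun i _ => smul_smul _ _ _
    rw [hsum] at hdx₁ hdx₂
    have hci := horth _ hdx₁ hdx₂ i
    -- `c i = d * (d⁻¹ c i)` with `res d = 0`
    have hprod : c i = ⟨d, hdA⟩ * ⟨d⁻¹ * ((c i : S₁.A) : K), hci⟩ := by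
      apply Subtype.ext
      show ((c i : S₁.A) : K) = d * (d⁻¹ * ((c i : S₁.A) : K))
      rw [← mul_assoc, mul_inv_cancel₀ hd0, one_mul]
    rw [hprod, map_mul, hzero d hdA hdinv, zero_mul]

end Fermat.Agent.GaussInt
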