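/-
Cluster B (helper5): the TAME lemma.

`K` a field of characteristic zero, `A` a valuation subring of `K` over a rational prime `ℓ`.
A series `P ∈ K((q))` is *tame* if it is zero or has a coefficient of maximal valuation.
Main result: every `K`-linear combination of rational series that are integral at `A` is tame
(`isTame_of_mem_span`).  Only the discreteness of `ℤ_(ℓ)` is used (no number fields, no
completions, no rank-one hypothesis on `A`).
-/
import Mathlib
import Fermat.Agent.Lib.GaussInt.Basic
import Fermat.Agent.S05.H5.IntVal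
import Fermat.Prelude.Def_FLTPrelim_Ramification

set_option autoImplicit false

noncomputable section

namespace Fermat.Agent.GaussInt

open ModularCurve HahnSeries

variable {K : Type*} [Field K] [Algebra ℚ K] (A : ValuationSubring K)

/-- A rational Laurent series is integral at `A`. -/
def IsIntQ (g : LaurentSeries ℚ) : Prop := ∀ n, algebraMap ℚ K (g.coeff n) ∈ A

/-- A series over `K` is tame: zero, or it has a coefficient of maximal valuation. -/
def IsTame (P : LaurentSeries K) : Prop :=
  P = 0 ∨ ∃ n₀, P.coeff n₀ ≠ 0 ∧ ∀ n, A.valuation (P.coeff n) ≤ A.valuation (P.coeff n₀)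

variable {A}

section Discrete

variable {ℓ : ℕ} (hℓ : ℓ.Prime) (hA : A.LiesOverPrime ℓ)
include hℓ hA

theorem valuation_prime_lt_one : A.valuation (ℓ : K) < 1 :=
  (A.mem_nonunits_iff).mp hA

theorem valuation_intCast_eq_pow {a : ℤ} (ha : a ≠ 0) :
    ∃ e : ℕ, A.valuation (a : K) = A.valuation (ℓ : K) ^ e := by
  have hfin : FiniteMultiplicity (ℓ : ℤ) a := by
    rw [Int.finiteMultiplicity_iff]
    refine ⟨?_, ha⟩
    rw [Int.natAbs_natCast]
    exact hℓ.one_lt.ne'
  obtain ⟨c, hc, hdvd⟩ := hfin.exists_eq_pow_mul_and_not_dvd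
  refine ⟨multiplicity (ℓ : ℤ) a, ?_⟩
  have h1 : A.valuation (c : K) = 1 :=
    S05H5.v_intCast_eq_one A.valuation hℓ (valuation_prime_lt_one hℓ hA) hdvd
  have h2 : (a : K) = (ℓ : K) ^ multiplicity (ℓ : ℤ) a * (c : K) := by
    conv_lhs => rw [hc]
    push_cast
    rfl
  rw [h2, map_mul, map_pow, h1, mul_one]

theorem valuation_rat_eq_pow {c : ℚ} (hc : c ≠ 0) (hcA : algebraMap ℚ K c ∈ A) :
    ∃ e : ℕ, A.valuation (algebraMap ℚ K c) = A.valuation (ℓ : K) ^ e := by
  have hden : (c.den : K) ≠ 0 := by
    have : (c.den : ℚ) ≠ 0 := by exact_mod_cast c.den_ne_zero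
    have h := (algebraMap ℚ K).injective.ne this
    simpa using h
  have hnum : c.num ≠ 0 := Rat.num_ne_zero.mpr hc
  have hcK : algebraMap ℚ K c = (c.num : K) / (c.den : K) := by
    conv_lhs => rw [← Rat.num_div_den c]
    simp
  have hvl := valuation_prime_lt_one hℓ hA
  -- the denominator is prime to `ℓ`
  have hndvd : ¬ ℓ ∣ c.den := by
    intro hd
    have hnum' : ¬ (ℓ : ℤ) ∣ c.num := by
      intro hn
      have h1 : ℓ ∣ c.num.natAbs := Int.natCast_dvd.mp hn
      have h2 := Nat.dvd_gcd h1 hd
      rw [c.reduced] at h2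
      exact hℓ.one_lt.ne' (Nat.dvd_one.mp h2)
    have hv1 : A.valuation (c.num : K) = 1 :=
      S05H5.v_intCast_eq_one A.valuation hℓ hvl hnum'
    have hv2 : A.valuation (c.den : K) < 1 := by
      have := S05H5.v_intCast_lt_one A.valuation hvl (n := (c.den : ℤ))
        (Int.natCast_dvd_natCast.mpr hd)
      simpa using this
    have hv3 : A.valuation (algebraMap ℚ K c) ≤ 1 := (A.valuation_le_one_iff _).mpr hcA
    rw [hcK, map_div₀, hv1] at hv3
    have hv4 : A.valuation (c.den : K) ≠ 0 := (Valuation.ne_zero_iff _).mpr hden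
    rw [div_le_iff₀ (zero_lt_iff.mpr hv4), one_mul] at hv3
    exact absurd hv2 (not_lt.mpr hv3)
  have hvden : A.valuation (c.den : K) = 1 :=
    S05H5.v_natCast_eq_one A.valuation hℓ hvl hndvd
  obtain ⟨e, he⟩ := valuation_intCast_eq_pow hℓ hA (K := K) hnum
  exact ⟨e, by rw [hcK, map_div₀, hvden, div_one, he]⟩

/-- DISCRETENESS: a nonzero rational series, integral at `A`, has a coefficient of maximal
valuation. -/
theorem exists_pivot_rat {g : LaurentSeries ℚ} (hg : g ≠ 0) (hint : IsIntQ A g) :
    ∃ n₀, g.coeff n₀ ≠ 0 ∧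
      ∀ n, A.valuation (algebraMap ℚ K (g.coeff n)) ≤ A.valuation (algebraMap ℚ K (g.coeff n₀)) := by
  classical
  have hex : ∃ e : ℕ, ∃ n, g.coeff n ≠ 0 ∧
      A.valuation (algebraMap ℚ K (g.coeff n)) = A.valuation (ℓ : K) ^ e := by
    obtain ⟨n, hn⟩ : ∃ n, g.coeff n ≠ 0 := by
      by_contra h
      push Not at h
      exact hg (HahnSeries.ext (funext h))
    obtain ⟨e, he⟩ := valuation_rat_eq_pow hℓ hA hn (hint n)
    exact ⟨e, n, hn, he⟩
  obtain ⟨n₀, hn₀, he₀⟩ := Nat.find_spec hex
  refine ⟨n₀, hn₀, fun n => ?_⟩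
  by_cases hn : g.coeff n = 0
  · rw [hn, map_zero, map_zero]
    exact zero_le
  obtain ⟨e, he⟩ := valuation_rat_eq_pow hℓ hA hn (hint n)
  have hle : Nat.find hex ≤ e := Nat.find_min' hex ⟨n, hn, he⟩
  rw [he, he₀]
  exact pow_le_pow_right_of_le_one' (valuation_prime_lt_one hℓ hA).le hle

end Discrete

/-- Combination step: a tame series plus a multiple of a series with a pivot at an index where
the first one vanishes is tame. -/
theorem IsTame.add_smul_pivot {P G : LaurentSeries K} (hP : IsTame A P) {n₁ : ℤ}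
    (hP1 : P.coeff n₁ = 0) (hG1 : G.coeff n₁ ≠ 0)
    (hG : ∀ n, A.valuation (G.coeff n) ≤ A.valuation (G.coeff n₁)) (c : K) :
    IsTame A (P + c • G) := by
  by_cases hc : c = 0
  · rw [hc, zero_smul, add_zero]
    exact hP
  have hcoeff : ∀ n, (P + c • G).coeff n = P.coeff n + c * G.coeff n := fun n => by
    rw [HahnSeries.coeff_add, HahnSeries.coeff_smul, smul_eq_mul]
  have hcG : ∀ n, A.valuation (c * G.coeff n) ≤ A.valuation (c * G.coeff n₁) := fun n => by
    rw [map_mul, map_mul]
    exact mul_le_mul_right (hG n) _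
  have hcG1 : c * G.coeff n₁ ≠ 0 := mul_ne_zero hc hG1
  rcases hP with rfl | ⟨n', hn', hmax⟩
  · right
    refine ⟨n₁, ?_, fun n => ?_⟩
    · rw [hcoeff, HahnSeries.coeff_zero, zero_add]
      exact hcG1
    · rw [hcoeff, hcoeff, HahnSeries.coeff_zero, zero_add, HahnSeries.coeff_zero, zero_add]
      exact hcG n
  · right
    rcases le_or_gt (A.valuation (P.coeff n')) (A.valuation (c * G.coeff n₁)) with hle | hlt
    · refine ⟨n₁, ?_, fun n => ?_⟩
      · rw [hcoeff, hP1, zero_add]
        exact hcG1
      · rw [hcoeff, hcoeff n₁, hP1, zero_add]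
        exact Valuation.map_add_le _ ((hmax n).trans hle) (hcG n)
    · have h1 : A.valuation (c * G.coeff n') < A.valuation (P.coeff n') :=
        lt_of_le_of_lt (hcG n') hlt
      have h2 : A.valuation ((P + c • G).coeff n') = A.valuation (P.coeff n') := by
        rw [hcoeff]
        exact Valuation.map_add_eq_of_lt_left _ h1
      refine ⟨n', ?_, fun n => ?_⟩
      · intro h0
        rw [h0, map_zero] at h2
        exact hn' ((Valuation.zero_iff _).mp h2.symm)
      · rw [h2, hcoeff]
        exact Valuation.map_add_le _ (hmax n) ((hcG n).trans hlt.le)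

section Span

variable {ℓ : ℕ} (hℓ : ℓ.Prime) (hA : A.LiesOverPrime ℓ)
include hℓ hA

/-- TAME LEMMA, finite sums. -/
theorem isTame_sum {ι : Type*} (s : Finset ι) :
    ∀ (c : ι → K) (g : ι → LaurentSeries ℚ), (∀ i ∈ s, IsIntQ A (g i)) →
      IsTame A (∑ i ∈ s, c i • coeffEmb K (g i)) := by
  classical
  induction s using Finset.induction_on with
  | empty =>
    intro c g _
    left
    simp
  | insert a s has ih =>
    intro c g hint
    by_cases hga : g a = 0
    · rw [Finset.sum_insert has, hga, map_zero, smul_zero, zero_add]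
      exact ih c g fun i hi => hint i (Finset.mem_insert_of_mem hi)
    obtain ⟨n₁, hn₁, hmax⟩ := exists_pivot_rat hℓ hA hga (hint a (Finset.mem_insert_self a s))
    set a₁ : ℚ := (g a).coeff n₁ with ha₁
    -- the modified series
    set g' : ι → LaurentSeries ℚ := fun i => g i - ((g i).coeff n₁ / a₁) • g a with hg'
    have hg'int : ∀ i ∈ s, IsIntQ A (g' i) := by
      intro i hi n
      have h1 : algebraMap ℚ K ((g i).coeff n) ∈ A := hint i (Finset.mem_insert_of_mem hi) n
      have h2 : algebraMap ℚ K ((g i).coeff n₁) ∈ A := hint i (Finset.mem_insert_of_mem hi) n₁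
      have h3 : algebraMap ℚ K ((g a).coeff n / a₁) ∈ A := by
        rw [← A.valuation_le_one_iff, map_div₀, map_div₀]
        have hne : A.valuation (algebraMap ℚ K a₁) ≠ 0 :=
          (Valuation.ne_zero_iff _).mpr
            (fun h0 => hn₁ ((algebraMap ℚ K).injective (h0.trans (map_zero _).symm)))
        rw [div_le_iff₀ (zero_lt_iff.mpr hne), one_mul]
        exact hmax n
      have : (g' i).coeff n = (g i).coeff n - (g i).coeff n₁ * ((g a).coeff n / a₁) := by
        simp only [hg', HahnSeries.coeff_sub, HahnSeries.coeff_smul, smul_eq_mul]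
        ring
      rw [this, map_sub, map_mul]
      exact sub_mem h1 (mul_mem h2 h3)
    have hg'1 : ∀ i, (g' i).coeff n₁ = 0 := by
      intro i
      simp only [hg', HahnSeries.coeff_sub, HahnSeries.coeff_smul, smul_eq_mul]
      rw [← ha₁, div_mul_cancel₀ _ hn₁, sub_self]
    set c' : K := c a + ∑ i ∈ s, c i * algebraMap ℚ K ((g i).coeff n₁ / a₁) with hc'
    have hsum : ∑ i ∈ insert a s, c i • coeffEmb K (g i) =
        (∑ i ∈ s, c i • coeffEmb K (g' i)) + c' • coeffEmb K (g a) := by
      have key : ∀ i, c i • coeffEmb K (g i) = c i • coeffEmb K (g' i) +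
          (c i * algebraMap ℚ K ((g i).coeff n₁ / a₁)) • coeffEmb K (g a) := by
        intro i
        simp only [hg', map_sub, smul_sub]
        have : coeffEmb K (((g i).coeff n₁ / a₁) • g a) =
            algebraMap ℚ K ((g i).coeff n₁ / a₁) • coeffEmb K (g a) := by
          ext n
          rw [coeffEmb_coeff, HahnSeries.coeff_smul, HahnSeries.coeff_smul, coeffEmb_coeff,
            smul_eq_mul, smul_eq_mul, map_mul]
        rw [this, mul_smul]
        abel
      rw [Finset.sum_insert has, hc', add_smul, Finset.sum_smul,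
        Finset.sum_congr rfl (fun i _ => key i), Finset.sum_add_distrib]
      abel
    rw [hsum]
    refine (ih c g' hg'int).add_smul_pivot (n₁ := n₁) ?_ ?_ ?_ c'
    · rw [HahnSeries.coeff_sum]
      refine Finset.sum_eq_zero fun i _ => ?_
      rw [HahnSeries.coeff_smul, coeffEmb_coeff, hg'1, map_zero, smul_zero]
    · rw [coeffEmb_coeff]
      intro h0
      exact hn₁ ((algebraMap ℚ K).injective (h0.trans (map_zero _).symm))
    · intro n
      rw [coeffEmb_coeff, coeffEmb_coeff]
      exact hmax n

/-- TAME LEMMA: every `K`-linear combination of rational series integral at `A` is tame. -/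
theorem isTame_of_mem_span {P : LaurentSeries K}
    (hP : P ∈ Submodule.span K (coeffEmb K '' {g | IsIntQ A g})) : IsTame A P := by
  classical
  rw [Submodule.mem_span_iff_exists_finset_subset] at hP
  obtain ⟨f, t, ht, -, rfl⟩ := hP
  have hch : ∀ x : LaurentSeries K, ∃ g : LaurentSeries ℚ, x ∈ t → (IsIntQ A g ∧ coeffEmb K g = x) := by
    intro x
    by_cases hx : x ∈ t
    · obtain ⟨g, hg, hgx⟩ := ht hx
      exact ⟨g, fun _ => ⟨hg, hgx⟩⟩
    · exact ⟨0, fun h => absurd h hx⟩
  choose g hg using hch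
  have := isTame_sum hℓ hA t f g fun i hi => (hg i hi).1
  have heq : ∑ i ∈ t, f i • coeffEmb K (g i) = ∑ a ∈ t, f a • a :=
    Finset.sum_congr rfl fun i hi => by rw [(hg i hi).2]
  rwa [heq] at this

end Span

end Fermat.Agent.GaussInt
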