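/-
Cluster B, chain step (4), PER-PRIME form (helper68): `F3T.KeyLemmaAtPrime M ℓ` from the good
reduction input `BaseInputAt` / `JInputAt` at the places over the single prime `ℓ`.
Same proof as `keyLemmaAt_of_baseInput` (`Lib/GaussInt/KeyAsm.lean`).
-/
import Mathlib
import Fermat.Agent.Lib.GaussInt.KeyAsm
import Fermat.Agent.F3.Transfer.Wrap

set_option autoImplicit false
set_option synthInstance.maxHeartbeats 400000
set_option maxHeartbeats 1000000
set_option linter.style.haveILetI false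

noncomputable section

namespace Fermat.Agent.GaussInt

open ModularCurve AlgebraicCurve IntermediateField Fermat.Agent.RR Fermat.Agent.Deuring

/-- the KEY LEMMA at one place `A` over `ℓ ∤ M`, from the good reduction input at `A`. -/
theorem exists_pow_eq_of_baseInputAt (M : ℕ) [NeZero M] {ℓ : ℕ} (hℓ : ℓ.Prime)
    (A : ValuationSubring (AlgebraicClosure ℚ)) (hA : A.LiesOverPrime ℓ) (hℓM : ¬ ℓ ∣ M)
    (h : BaseInputAt A ℓ M hℓ hA hℓM) (n : ℕ) (hℓn : ¬ ℓ ∣ n)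
    (g : modularFunctionFieldBar M)
    (hdiv : ∀ P : Place (AlgebraicClosure ℚ) (modularFunctionFieldBar M), (n : ℤ) ∣ P.ord g)
    (hgO : (g : LaurentSeries (AlgebraicClosure ℚ)) ∈ gaussSub A (modularFunctionFieldBar M))
    (hgres : gaussResFun A (modularFunctionFieldBar M)
      (g : LaurentSeries (AlgebraicClosure ℚ)) = 1) :
    ∃ h : modularFunctionFieldBar M, h ^ n = g := by
  haveI : IsAlgClosed (IsLocalRing.ResidueField A) := isAlgClosed_residue A
  haveI : Infinite (IsLocalRing.ResidueField A) := infinite_residue A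
  obtain ⟨hgen, x, hx, hy, hfd, hsep, hle⟩ := h
  have hn0 : ((n : ℕ) : AlgebraicClosure ℚ) ≠ 0 :=
    Nat.cast_ne_zero.mpr (fun h0 => hℓn (h0 ▸ dvd_zero ℓ))
  have hnA : ((n : AlgebraicClosure ℚ))⁻¹ ∈ (modularValSetup A ℓ M hℓ hA hℓM).A :=
    natCast_inv_mem_of_not_dvd A hℓ hA hℓn
  have hgO' : g ∈ (modularValSetup A ℓ M hℓ hA hℓM).Ov := hgO
  have hρ : (modularValSetup A ℓ M hℓ hA hℓM).ρ ⟨g, hgO'⟩ = 1 :=
    (modularValSetup_ρ_eq_one_iff A ℓ M hℓ hA hℓM g hgO').mpr hgres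
  exact Fermat.Agent.S18Key.exists_pow_eq_of_valSetup (modularValSetup A ℓ M hℓ hA hℓM)
    (hasLattice_modularValSetup A ℓ M hℓ hA hℓM) hgen
    (fun r hpush hGR hdeg =>
      Fermat.Agent.S18Key.nonempty_baseFn (modularValSetup A ℓ M hℓ hA hℓM) r hpush hGR hdeg
        x hx hy hle)
    n hn0 hnA g hgO' hρ hdiv

/-- **Chain step (4), per prime**: the KEY LEMMA at level `M` for the prime `ℓ`. -/
theorem keyLemmaAtPrime_of_baseInput (M ℓ : ℕ) [NeZero M]
    (h : ∀ (hℓ : ℓ.Prime) (A : ValuationSubring (AlgebraicClosure ℚ))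
      (hA : A.LiesOverPrime ℓ) (hℓM : ¬ ℓ ∣ M), BaseInputAt A ℓ M hℓ hA hℓM) :
    Fermat.Agent.F3T.KeyLemmaAtPrime M ℓ := by
  intro n hℓ hℓMn A hA g _ hdiv hgO hgres
  have hℓM : ¬ ℓ ∣ M := fun h => hℓMn (h.mul_right n)
  have hℓn : ¬ ℓ ∣ n := fun h => hℓMn (h.mul_left M)
  exact exists_pow_eq_of_baseInputAt M hℓ A hA hℓM (h hℓ A hA hℓM) n hℓn g hdiv hgO hgres

/-- **Chain step (4), per prime**, with `j` as base function. -/
theorem keyLemmaAtPrime_of_jInput (M ℓ : ℕ) [NeZero M]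
    (h : ℓ.Prime → ∀ A : ValuationSubring (AlgebraicClosure ℚ),
      A.LiesOverPrime ℓ → ¬ ℓ ∣ M → JInputAt A M) :
    Fermat.Agent.F3T.KeyLemmaAtPrime M ℓ :=
  keyLemmaAtPrime_of_baseInput M ℓ fun hℓ A hA hℓM =>
    baseInputAt_of_jInputAt A ℓ M hℓ hA hℓM (h hℓ A hA hℓM)

end Fermat.Agent.GaussInt
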