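/-
Cluster B (helper5): `KeyLemmaAt N` ⟹ `F3G.InertiaPow N` ⟹ `F3.TorsionUnramified N`
(the value group statement is proved unconditionally in `ValGroup.lean`).
-/
import Mathlib
import Fermat.Agent.Lib.GaussInt.Unramified
import Fermat.Agent.Lib.GaussInt.ValGroup

set_option autoImplicit false

namespace Fermat.Agent.GaussInt

open Fermat.Agent.F3 Fermat.Agent.F3G

variable {N : ℕ} [NeZero N]

/-- Chain step (1): the KEY LEMMA implies the function form of "inertia acts trivially". -/
theorem inertiaPow_of_keyLemmaAt (hKL : KeyLemmaAt N) : InertiaPow N :=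
  inertiaPow_of_keyLemma hKL (valueGroupAt N)

/-- The KEY LEMMA implies that inertia at `ℓ ∤ N n` acts trivially on `J₀(N)[n]`. -/
theorem torsionUnramified_of_keyLemmaAt (hKL : KeyLemmaAt N) : TorsionUnramified N :=
  torsionUnramified_of_keyLemma hKL (valueGroupAt N)

end Fermat.Agent.GaussInt
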